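import Mathlib

/-!
# F1, piece (a): the addition-and-subtraction map does what it claims

For nonsingular points `P`, `Q` of a Weierstrass curve over a field, Mathlib's
`WeierstrassCurve.addSubMap` evaluated at `P.sym2x Q` (a representative of
`(x(P) x(Q) : x(P) + x(Q) : 1)`) is a nonzero multiple of `(P + Q).sym2x (P - Q)`.
This is the exact identity behind the parallelogram law for heights.
-/

set_option autoImplicit false
set_option linter.unusedSectionVars false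
set_option linter.unusedSimpArgs false

namespace Fermat.Agent.F1

open WeierstrassCurve WeierstrassCurve.Affine WeierstrassCurve.Affine.Point

variable {F : Type*} [Field F]

/-- sum identity, generic case -/
theorem addSub_sum_aux (a₁ a₂ a₃ a₄ a₆ x₁ y₁ x₂ y₂ : F)
    (h₁ : y₁ ^ 2 + a₁ * x₁ * y₁ + a₃ * y₁ = x₁ ^ 3 + a₂ * x₁ ^ 2 + a₄ * x₁ + a₆)
    (h₂ : y₂ ^ 2 + a₁ * x₂ * y₂ + a₃ * y₂ = x₂ ^ 3 + a₂ * x₂ ^ 2 + a₄ * x₂ + a₆) :
    ((y₁ - y₂) ^ 2 + a₁ * (x₁ - x₂) * (y₁ - y₂) - (x₁ - x₂) ^ 2 * (a₂ + x₁ + x₂))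
      + ((y₁ + y₂ + a₁ * x₂ + a₃) ^ 2 + a₁ * (x₁ - x₂) * (y₁ + y₂ + a₁ * x₂ + a₃)
          - (x₁ - x₂) ^ 2 * (a₂ + x₁ + x₂))
      = 2 * (x₁ + x₂) * (x₁ * x₂) + (a₁ ^ 2 + 4 * a₂) * (x₁ * x₂)
          + (2 * a₄ + a₁ * a₃) * (x₁ + x₂) + (a₃ ^ 2 + 4 * a₆) := by
  grind

/-- product identity, generic case -/
theorem addSub_prod_aux (a₁ a₂ a₃ a₄ a₆ x₁ y₁ x₂ y₂ : F)
    (h₁ : y₁ ^ 2 + a₁ * x₁ * y₁ + a₃ * y₁ = x₁ ^ 3 + a₂ * x₁ ^ 2 + a₄ * x₁ + a₆)
    (h₂ : y₂ ^ 2 + a₁ * x₂ * y₂ + a₃ * y₂ = x₂ ^ 3 + a₂ * x₂ ^ 2 + a₄ * x₂ + a₆) :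
    ((y₁ - y₂) ^ 2 + a₁ * (x₁ - x₂) * (y₁ - y₂) - (x₁ - x₂) ^ 2 * (a₂ + x₁ + x₂))
      * ((y₁ + y₂ + a₁ * x₂ + a₃) ^ 2 + a₁ * (x₁ - x₂) * (y₁ + y₂ + a₁ * x₂ + a₃)
          - (x₁ - x₂) ^ 2 * (a₂ + x₁ + x₂))
      = (x₁ - x₂) ^ 2 * ((x₁ * x₂) ^ 2 - (2 * a₄ + a₁ * a₃) * (x₁ * x₂)
          - (a₃ ^ 2 + 4 * a₆) * (x₁ + x₂)
          - (a₁ ^ 2 * a₆ + 4 * a₂ * a₆ - a₁ * a₃ * a₄ + a₂ * a₃ ^ 2 - a₄ ^ 2)) := by
  grind

/-- doubling: `ψ₂²` -/
theorem dbl_den_aux (a₁ a₂ a₃ a₄ a₆ x y : F)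
    (h : y ^ 2 + a₁ * x * y + a₃ * y = x ^ 3 + a₂ * x ^ 2 + a₄ * x + a₆) :
    (2 * y + a₁ * x + a₃) ^ 2 = 4 * x ^ 3 + (a₁ ^ 2 + 4 * a₂) * x ^ 2
      + 2 * (2 * a₄ + a₁ * a₃) * x + (a₃ ^ 2 + 4 * a₆) := by
  grind

/-- doubling: numerator -/
theorem dbl_num_aux (a₁ a₂ a₃ a₄ a₆ x y : F)
    (h : y ^ 2 + a₁ * x * y + a₃ * y = x ^ 3 + a₂ * x ^ 2 + a₄ * x + a₆) :
    (3 * x ^ 2 + 2 * a₂ * x + a₄ - a₁ * y) ^ 2
      + a₁ * (3 * x ^ 2 + 2 * a₂ * x + a₄ - a₁ * y) * (2 * y + a₁ * x + a₃)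
      - (a₂ + 2 * x) * (2 * y + a₁ * x + a₃) ^ 2
      = x ^ 4 - (2 * a₄ + a₁ * a₃) * x ^ 2 - 2 * (a₃ ^ 2 + 4 * a₆) * x
          - (a₁ ^ 2 * a₆ + 4 * a₂ * a₆ - a₁ * a₃ * a₄ + a₂ * a₃ ^ 2 - a₄ ^ 2) := by
  grind

section Eval

variable (W : WeierstrassCurve F)

/-- The three components of `addSubMap` evaluated at a vector. -/
theorem eval_addSubMap_zero (v : Fin 3 → F) :
    MvPolynomial.eval v (W.addSubMap 0) =
      v 0 ^ 2 - W.b₄ * v 0 * v 2 - W.b₆ * v 1 * v 2 - W.b₈ * v 2 ^ 2 := by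
  simp [addSubMap]

theorem eval_addSubMap_one (v : Fin 3 → F) :
    MvPolynomial.eval v (W.addSubMap 1) =
      2 * v 1 * v 0 + W.b₂ * v 0 * v 2 + W.b₄ * v 1 * v 2 + W.b₆ * v 2 ^ 2 := by
  simp [addSubMap]

theorem eval_addSubMap_two (v : Fin 3 → F) :
    MvPolynomial.eval v (W.addSubMap 2) = v 1 ^ 2 - 4 * v 0 * v 2 := by
  simp [addSubMap]

end Eval

end Fermat.Agent.F1

namespace Fermat.Agent.F1

open WeierstrassCurve WeierstrassCurve.Affine WeierstrassCurve.Affine.Point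

variable {F : Type*} [Field F] [DecidableEq F] {W : WeierstrassCurve.Affine F}

/-- The curve equation in expanded form. -/
theorem equation_expand {x y : F} (h : W.Equation x y) :
    y ^ 2 + W.a₁ * x * y + W.a₃ * y = x ^ 3 + W.a₂ * x ^ 2 + W.a₄ * x + W.a₆ :=
  (W.equation_iff x y).mp h

/-- The statement of the add-sub identity for a pair of points. -/
def AddSubProp (P Q : W.Point) : Prop :=
  ∃ c : F, c ≠ 0 ∧ ∀ i, MvPolynomial.eval (P.sym2x Q) (WeierstrassCurve.addSubMap W i) =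
    c * (P + Q).sym2x (P - Q) i

theorem addSubProp_zero_left (Q : W.Point) : AddSubProp 0 Q := by
  refine ⟨1, one_ne_zero, fun i => ?_⟩
  rw [zero_add, zero_sub, sym2x_neg_right, one_mul]
  cases Q with
  | zero =>
    fin_cases i <;> simp [eval_addSubMap_zero, eval_addSubMap_one, eval_addSubMap_two, sym2x, ← zero_def]
  | some x y h =>
    fin_cases i <;>
      simp [eval_addSubMap_zero, eval_addSubMap_one, eval_addSubMap_two, sym2x, ← zero_def] <;> ring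

theorem addSubProp_zero_right (P : W.Point) : AddSubProp P 0 := by
  refine ⟨1, one_ne_zero, fun i => ?_⟩
  rw [add_zero, sub_zero, one_mul]
  cases P with
  | zero =>
    fin_cases i <;> simp [eval_addSubMap_zero, eval_addSubMap_one, eval_addSubMap_two, sym2x, ← zero_def]
  | some x y h =>
    fin_cases i <;>
      simp [eval_addSubMap_zero, eval_addSubMap_one, eval_addSubMap_two, sym2x, ← zero_def] <;> ring


/-- The case `Q = P`. -/
theorem addSubProp_self (P : W.Point) : AddSubProp P P := by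
  cases P with
  | zero => exact addSubProp_zero_left _
  | some x y h =>
    have he := equation_expand h.1
    by_cases hy : y = W.negY x y
    · -- 2-torsion
      have hD : 2 * y + W.a₁ * x + W.a₃ = 0 := by
        rw [negY] at hy; linear_combination hy
      have hX : W.a₁ * y - (3 * x ^ 2 + 2 * W.a₂ * x + W.a₄) ≠ 0 := by
        have := (W.nonsingular_iff x y).mp h
        rcases this.2 with h1 | h1
        · exact sub_ne_zero.mpr h1
        · exact absurd (by linear_combination hD) h1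
      have hnum := dbl_num_aux W.a₁ W.a₂ W.a₃ W.a₄ W.a₆ x y he
      rw [hD] at hnum
      refine ⟨(3 * x ^ 2 + 2 * W.a₂ * x + W.a₄ - W.a₁ * y) ^ 2, ?_, fun i => ?_⟩
      · refine pow_ne_zero 2 fun h0 => hX ?_
        linear_combination -h0
      · rw [add_self_of_Y_eq hy, sub_self]
        have hden := dbl_den_aux W.a₁ W.a₂ W.a₃ W.a₄ W.a₆ x y he
        rw [hD] at hden
        fin_cases i
        · simp only [Fin.zero_eta, eval_addSubMap_zero, sym2x_some_some, sym2x_zero_zero,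
            Matrix.cons_val_zero, Matrix.cons_val_one, Matrix.cons_val, WeierstrassCurve.b₄,
            WeierstrassCurve.b₆, WeierstrassCurve.b₈]
          linear_combination -hnum
        · simp only [Fin.mk_one, eval_addSubMap_one, sym2x_some_some, sym2x_zero_zero,
            Matrix.cons_val_zero, Matrix.cons_val_one, Matrix.cons_val, WeierstrassCurve.b₂,
            WeierstrassCurve.b₄, WeierstrassCurve.b₆]
          linear_combination -hden
        · simp only [Fin.reduceFinMk, eval_addSubMap_two, sym2x_some_some, sym2x_zero_zero,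
            Matrix.cons_val_zero, Matrix.cons_val_one, Matrix.cons_val]
          ring
    · -- doubling
      have hD : y - W.negY x y ≠ 0 := sub_ne_zero.mpr hy
      have hD' : y - W.negY x y = 2 * y + W.a₁ * x + W.a₃ := by rw [negY]; ring
      have hnum := dbl_num_aux W.a₁ W.a₂ W.a₃ W.a₄ W.a₆ x y he
      have hden := dbl_den_aux W.a₁ W.a₂ W.a₃ W.a₄ W.a₆ x y he
      refine ⟨(y - W.negY x y) ^ 2, pow_ne_zero 2 hD, fun i => ?_⟩
      rw [add_self_of_Y_ne hy, sub_self]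
      have key : (y - W.negY x y) ^ 2 *
          W.addX x x ((3 * x ^ 2 + 2 * W.a₂ * x + W.a₄ - W.a₁ * y) / (y - W.negY x y)) =
          (3 * x ^ 2 + 2 * W.a₂ * x + W.a₄ - W.a₁ * y) ^ 2
            + W.a₁ * (3 * x ^ 2 + 2 * W.a₂ * x + W.a₄ - W.a₁ * y) * (y - W.negY x y)
            - (W.a₂ + 2 * x) * (y - W.negY x y) ^ 2 := by
        rw [addX]
        field_simp
        ring
      fin_cases i
      · simp only [Fin.zero_eta, eval_addSubMap_zero, sym2x_some_some, sym2x_some_zero,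
          Matrix.cons_val_zero, Matrix.cons_val_one, Matrix.cons_val, WeierstrassCurve.b₄,
          WeierstrassCurve.b₆, WeierstrassCurve.b₈]
        rw [slope_of_Y_ne rfl hy, key, hD']
        linear_combination -hnum
      · simp only [Fin.mk_one, eval_addSubMap_one, sym2x_some_some, sym2x_some_zero,
          Matrix.cons_val_zero, Matrix.cons_val_one, Matrix.cons_val, WeierstrassCurve.b₂,
          WeierstrassCurve.b₄, WeierstrassCurve.b₆]
        rw [hD']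
        linear_combination -hden
      · simp only [Fin.reduceFinMk, eval_addSubMap_two, sym2x_some_some, sym2x_some_zero,
          Matrix.cons_val_zero, Matrix.cons_val_one, Matrix.cons_val]
        ring


/-- The generic case `x(P) ≠ x(Q)`. -/
theorem addSubProp_of_X_ne {x₁ y₁ x₂ y₂ : F} (h₁ : W.Nonsingular x₁ y₁) (h₂ : W.Nonsingular x₂ y₂)
    (hx : x₁ ≠ x₂) : AddSubProp (Point.some x₁ y₁ h₁) (Point.some x₂ y₂ h₂) := by
  have he₁ := equation_expand h₁.1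
  have he₂ := equation_expand h₂.1
  have hd : x₁ - x₂ ≠ 0 := sub_ne_zero.mpr hx
  have hsum := addSub_sum_aux W.a₁ W.a₂ W.a₃ W.a₄ W.a₆ x₁ y₁ x₂ y₂ he₁ he₂
  have hprod := addSub_prod_aux W.a₁ W.a₂ W.a₃ W.a₄ W.a₆ x₁ y₁ x₂ y₂ he₁ he₂
  have keyp : (x₁ - x₂) ^ 2 * W.addX x₁ x₂ ((y₁ - y₂) / (x₁ - x₂)) =
      (y₁ - y₂) ^ 2 + W.a₁ * (x₁ - x₂) * (y₁ - y₂) - (x₁ - x₂) ^ 2 * (W.a₂ + x₁ + x₂) := by
    rw [addX]
    field_simp
    ring
  have keym : (x₁ - x₂) ^ 2 * W.addX x₁ x₂ ((y₁ - W.negY x₂ y₂) / (x₁ - x₂)) =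
      (y₁ + y₂ + W.a₁ * x₂ + W.a₃) ^ 2 + W.a₁ * (x₁ - x₂) * (y₁ + y₂ + W.a₁ * x₂ + W.a₃)
        - (x₁ - x₂) ^ 2 * (W.a₂ + x₁ + x₂) := by
    rw [addX, negY]
    field_simp
    ring
  refine ⟨(x₁ - x₂) ^ 2, pow_ne_zero 2 hd, fun i => ?_⟩
  rw [sub_eq_add_neg (Point.some x₁ y₁ h₁) (Point.some x₂ y₂ h₂), neg_some, add_of_X_ne hx,
    add_of_X_ne hx]
  fin_cases i
  · simp only [Fin.zero_eta, eval_addSubMap_zero, sym2x_some_some,
      Matrix.cons_val_zero, Matrix.cons_val_one, Matrix.cons_val, WeierstrassCurve.b₄,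
      WeierstrassCurve.b₆, WeierstrassCurve.b₈]
    rw [slope_of_X_ne hx, slope_of_X_ne hx]
    have h3 : (x₁ - x₂) ^ 2 * ((x₁ - x₂) ^ 2 *
        (W.addX x₁ x₂ ((y₁ - y₂) / (x₁ - x₂)) *
          W.addX x₁ x₂ ((y₁ - W.negY x₂ y₂) / (x₁ - x₂)))) =
        (x₁ - x₂) ^ 2 * ((x₁ * x₂) ^ 2 - (2 * W.a₄ + W.a₁ * W.a₃) * (x₁ * x₂)
          - (W.a₃ ^ 2 + 4 * W.a₆) * (x₁ + x₂)
          - (W.a₁ ^ 2 * W.a₆ + 4 * W.a₂ * W.a₆ - W.a₁ * W.a₃ * W.a₄ + W.a₂ * W.a₃ ^ 2
              - W.a₄ ^ 2)) := by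
      rw [← hprod, ← keyp, ← keym]
      ring
    have h4 := mul_left_cancel₀ (pow_ne_zero 2 hd) h3
    rw [h4]
    ring
  · simp only [Fin.mk_one, eval_addSubMap_one, sym2x_some_some,
      Matrix.cons_val_zero, Matrix.cons_val_one, Matrix.cons_val, WeierstrassCurve.b₂,
      WeierstrassCurve.b₄, WeierstrassCurve.b₆]
    rw [slope_of_X_ne hx, slope_of_X_ne hx]
    linear_combination -hsum - keyp - keym
  · simp only [Fin.reduceFinMk, eval_addSubMap_two, sym2x_some_some,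
      Matrix.cons_val_zero, Matrix.cons_val_one, Matrix.cons_val]
    ring

/-- Symmetry: the statement for `(P, -Q)` implies the statement for `(P, Q)`. -/
theorem addSubProp_of_neg_right {P Q : W.Point} (h : AddSubProp P (-Q)) : AddSubProp P Q := by
  obtain ⟨c, hc, hi⟩ := h
  refine ⟨c, hc, fun i => ?_⟩
  have := hi i
  rw [sym2x_neg_right, sub_neg_eq_add, ← sub_eq_add_neg, sym2x_comm (P - Q) (P + Q)] at this
  exact this

/-- **The addition-and-subtraction map does what it claims.** For nonsingular points `P`, `Q`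
of a Weierstrass curve over a field, `addSubMap` evaluated at `sym2x P Q`
(a representative of `(x(P)x(Q) : x(P)+x(Q) : 1)`) is a nonzero multiple of
`sym2x (P+Q) (P-Q)`. -/
theorem addSubMap_eval_sym2x (P Q : W.Point) :
    ∃ c : F, c ≠ 0 ∧ ∀ i, MvPolynomial.eval (P.sym2x Q) (WeierstrassCurve.addSubMap W i) =
      c * (P + Q).sym2x (P - Q) i := by
  change AddSubProp P Q
  match P, Q with
  | 0, Q => exact addSubProp_zero_left Q
  | P, 0 => exact addSubProp_zero_right P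
  | Point.some x₁ y₁ h₁, Point.some x₂ y₂ h₂ =>
    by_cases hx : x₁ = x₂
    · rcases X_eq_iff.mp hx with h | h
      · rw [h]; exact addSubProp_self _
      · apply addSubProp_of_neg_right
        rw [h]
        exact addSubProp_self _
    · exact addSubProp_of_X_ne h₁ h₂ hx

end Fermat.Agent.F1
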