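import Fermat.Agent.F1.Defs

/-!
# F1 / BasePoint: L2, Mathlib's `addSubMap` doubles heights exactly (owner: helper88)

Use `WeierstrassCurve.addSubMapCoeff_condition` / `addSubMap_ne_zero` (Mathlib) :
* coprimality: the certificate shows `w i ^ 4` lies in the ideal generated by the three values;
* degree: the vector of `s`-th coefficients (`s = htriple w`) is nonzero, and the `2s`-th coefficient of
  `addSubMap i (w)` is `addSubMap i` of that vector.
-/

set_option autoImplicit false
set_option linter.unusedSimpArgs false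

open Polynomial

namespace Fermat.Agent.F1

variable {k : Type*} [Field k]

/-- explicit values of `addSubMap` at a triple of polynomials -/
theorem bp_aeval_addSubMap_zero (W : WeierstrassCurve k) (w : Fin 3 → k[X]) :
    MvPolynomial.aeval w (W.addSubMap 0) =
      w 0 ^ 2 - C W.b₄ * w 0 * w 2 - C W.b₆ * w 1 * w 2 - C W.b₈ * w 2 ^ 2 := by
  simp [WeierstrassCurve.addSubMap, MvPolynomial.algebraMap_eq]

theorem bp_aeval_addSubMap_one (W : WeierstrassCurve k) (w : Fin 3 → k[X]) :
    MvPolynomial.aeval w (W.addSubMap 1) =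
      C 2 * w 1 * w 0 + C W.b₂ * w 0 * w 2 + C W.b₄ * w 1 * w 2 + C W.b₆ * w 2 ^ 2 := by
  simp [WeierstrassCurve.addSubMap, MvPolynomial.algebraMap_eq]

theorem bp_aeval_addSubMap_two (W : WeierstrassCurve k) (w : Fin 3 → k[X]) :
    MvPolynomial.aeval w (W.addSubMap 2) = w 1 ^ 2 - C 4 * w 0 * w 2 := by
  simp [WeierstrassCurve.addSubMap, MvPolynomial.algebraMap_eq]

/-- `aeval` of `addSubMap` is `eval` of the `addSubMap` of the base-changed curve. -/
theorem bp_aeval_eq_eval_map (W : WeierstrassCurve k) (w : Fin 3 → k[X]) (i : Fin 3) :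
    MvPolynomial.aeval w (W.addSubMap i) =
      MvPolynomial.eval w ((W.map (C : k →+* k[X])).addSubMap i) := by
  have h2 : (C (2 : k) : k[X]) = 2 := map_ofNat C 2
  have h4 : (C (4 : k) : k[X]) = 4 := map_ofNat C 4
  fin_cases i
  · simp [WeierstrassCurve.addSubMap, MvPolynomial.algebraMap_eq]
  · simp [WeierstrassCurve.addSubMap, MvPolynomial.algebraMap_eq, h2]
  · simp [WeierstrassCurve.addSubMap, MvPolynomial.algebraMap_eq, h4]


theorem bp_cop3_iff_span (a b c : k[X]) : Cop3 a b c ↔ Ideal.span ({a, b, c} : Set k[X]) = ⊤ := by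
  constructor
  · rintro ⟨u, v, w, h⟩
    rw [Ideal.eq_top_iff_one, ← h]
    refine Ideal.add_mem _ (Ideal.add_mem _ ?_ ?_) ?_
    · exact Ideal.mul_mem_left _ _ (Ideal.subset_span (by simp))
    · exact Ideal.mul_mem_left _ _ (Ideal.subset_span (by simp))
    · exact Ideal.mul_mem_left _ _ (Ideal.subset_span (by simp))
  · intro h
    have h1 : (1 : k[X]) ∈ Ideal.span ({a, b, c} : Set k[X]) := by rw [h]; trivial
    rw [Ideal.mem_span_insert] at h1
    obtain ⟨u, z, hz, h1⟩ := h1
    rw [Ideal.mem_span_insert] at hz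
    obtain ⟨v, z', hz', hz⟩ := hz
    rw [Ideal.mem_span_singleton'] at hz'
    obtain ⟨w, hw⟩ := hz'
    exact ⟨u, v, w, by rw [h1, hz, ← hw]; ring⟩

/-- the certificate: `w i ^ 4` is in the ideal generated by the values of `addSubMap`. -/
theorem bp_pow_four_mem (W : WeierstrassCurve k) [W.IsElliptic] (w : Fin 3 → k[X]) (i : Fin 3) :
    w i ^ 4 ∈ Ideal.span ({MvPolynomial.aeval w (W.addSubMap 0),
      MvPolynomial.aeval w (W.addSubMap 1), MvPolynomial.aeval w (W.addSubMap 2)} : Set k[X]) := by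
  have key := WeierstrassCurve.addSubMapCoeff_condition (W.map (C : k →+* k[X])) w i
  rw [← key]
  refine Ideal.sum_mem _ fun j _ => ?_
  rw [← bp_aeval_eq_eval_map]
  refine Ideal.mul_mem_left _ _ (Ideal.subset_span ?_)
  fin_cases j <;> simp

theorem cop3_addSubMap (W : WeierstrassCurve k) [W.IsElliptic] (w : Fin 3 → k[X])
    (h : Cop3 (w 0) (w 1) (w 2)) :
    Cop3 (MvPolynomial.aeval w (W.addSubMap 0)) (MvPolynomial.aeval w (W.addSubMap 1))
      (MvPolynomial.aeval w (W.addSubMap 2)) := by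
  rw [bp_cop3_iff_span]
  rw [← Ideal.radical_eq_top, Ideal.eq_top_iff_one]
  obtain ⟨u, v, t, huv⟩ := h
  rw [← huv]
  have hm : ∀ i, w i ∈ (Ideal.span ({MvPolynomial.aeval w (W.addSubMap 0),
      MvPolynomial.aeval w (W.addSubMap 1), MvPolynomial.aeval w (W.addSubMap 2)} :
      Set k[X])).radical := fun i => ⟨4, bp_pow_four_mem W w i⟩
  exact Ideal.add_mem _ (Ideal.add_mem _ (Ideal.mul_mem_left _ _ (hm 0))
    (Ideal.mul_mem_left _ _ (hm 1))) (Ideal.mul_mem_left _ _ (hm 2))


section Degree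

variable {s : ℕ} {p q : k[X]}

theorem bp_natDegree_Cmul2 (c : k) (hp : p.natDegree ≤ s) (hq : q.natDegree ≤ s) :
    (C c * p * q).natDegree ≤ s + s := by
  rw [mul_assoc]
  exact (natDegree_C_mul_le _ _).trans (natDegree_mul_le_of_le hp hq)

theorem bp_natDegree_sq (hp : p.natDegree ≤ s) : (p ^ 2).natDegree ≤ s + s := by
  rw [pow_two]
  exact natDegree_mul_le_of_le hp hp

theorem bp_natDegree_Cmulsq (c : k) (hp : p.natDegree ≤ s) : (C c * p ^ 2).natDegree ≤ s + s :=
  (natDegree_C_mul_le _ _).trans (bp_natDegree_sq hp)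

theorem bp_natDegree_sub_le {n : ℕ} (hp : p.natDegree ≤ n) (hq : q.natDegree ≤ n) :
    (p - q).natDegree ≤ n :=
  (natDegree_sub_le p q).trans (max_le hp hq)

theorem bp_coeff_Cmul2 (c : k) (hp : p.natDegree ≤ s) (hq : q.natDegree ≤ s) :
    (C c * p * q).coeff (s + s) = c * p.coeff s * q.coeff s := by
  rw [mul_assoc, coeff_C_mul, coeff_mul_add_eq_of_natDegree_le hp hq, mul_assoc]

theorem bp_coeff_sq (hp : p.natDegree ≤ s) : (p ^ 2).coeff (s + s) = p.coeff s ^ 2 := by
  rw [pow_two, coeff_mul_add_eq_of_natDegree_le hp hp, pow_two]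

theorem bp_coeff_Cmulsq (c : k) (hp : p.natDegree ≤ s) :
    (C c * p ^ 2).coeff (s + s) = c * p.coeff s ^ 2 := by
  rw [coeff_C_mul, bp_coeff_sq hp]

end Degree

section Top

variable (W : WeierstrassCurve k) (w : Fin 3 → k[X]) {s : ℕ}

theorem bp_natDegree_le_zero (hw : ∀ i, (w i).natDegree ≤ s) :
    (MvPolynomial.aeval w (W.addSubMap 0)).natDegree ≤ s + s := by
  rw [bp_aeval_addSubMap_zero]
  exact bp_natDegree_sub_le (bp_natDegree_sub_le (bp_natDegree_sub_le
    (bp_natDegree_sq (hw 0)) (bp_natDegree_Cmul2 _ (hw 0) (hw 2)))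
    (bp_natDegree_Cmul2 _ (hw 1) (hw 2))) (bp_natDegree_Cmulsq _ (hw 2))

theorem bp_natDegree_le_one (hw : ∀ i, (w i).natDegree ≤ s) :
    (MvPolynomial.aeval w (W.addSubMap 1)).natDegree ≤ s + s := by
  rw [bp_aeval_addSubMap_one]
  exact natDegree_add_le_of_degree_le (natDegree_add_le_of_degree_le
    (natDegree_add_le_of_degree_le
    (bp_natDegree_Cmul2 _ (hw 1) (hw 0)) (bp_natDegree_Cmul2 _ (hw 0) (hw 2)))
    (bp_natDegree_Cmul2 _ (hw 1) (hw 2))) (bp_natDegree_Cmulsq _ (hw 2))

theorem bp_natDegree_le_two (hw : ∀ i, (w i).natDegree ≤ s) :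
    (MvPolynomial.aeval w (W.addSubMap 2)).natDegree ≤ s + s := by
  rw [bp_aeval_addSubMap_two]
  exact bp_natDegree_sub_le (bp_natDegree_sq (hw 1)) (bp_natDegree_Cmul2 _ (hw 0) (hw 2))

theorem bp_coeff_zero (hw : ∀ i, (w i).natDegree ≤ s) :
    (MvPolynomial.aeval w (W.addSubMap 0)).coeff (s + s) =
      MvPolynomial.eval (fun i => (w i).coeff s) (W.addSubMap 0) := by
  rw [bp_aeval_addSubMap_zero]
  simp only [coeff_sub, bp_coeff_sq (hw 0), bp_coeff_Cmul2 _ (hw 0) (hw 2),
    bp_coeff_Cmul2 _ (hw 1) (hw 2), bp_coeff_Cmulsq _ (hw 2)]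
  simp [WeierstrassCurve.addSubMap]

theorem bp_coeff_one (hw : ∀ i, (w i).natDegree ≤ s) :
    (MvPolynomial.aeval w (W.addSubMap 1)).coeff (s + s) =
      MvPolynomial.eval (fun i => (w i).coeff s) (W.addSubMap 1) := by
  rw [bp_aeval_addSubMap_one]
  simp only [coeff_add, bp_coeff_Cmul2 _ (hw 1) (hw 0), bp_coeff_Cmul2 _ (hw 0) (hw 2),
    bp_coeff_Cmul2 _ (hw 1) (hw 2), bp_coeff_Cmulsq _ (hw 2)]
  simp [WeierstrassCurve.addSubMap]

theorem bp_coeff_two (hw : ∀ i, (w i).natDegree ≤ s) :
    (MvPolynomial.aeval w (W.addSubMap 2)).coeff (s + s) =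
      MvPolynomial.eval (fun i => (w i).coeff s) (W.addSubMap 2) := by
  rw [bp_aeval_addSubMap_two]
  simp only [coeff_sub, bp_coeff_sq (hw 1), bp_coeff_Cmul2 _ (hw 0) (hw 2)]
  simp [WeierstrassCurve.addSubMap]

end Top


theorem bp_natDegree_le_htriple (w : Fin 3 → k[X]) (i : Fin 3) :
    (w i).natDegree ≤ htriple (w 0) (w 1) (w 2) := by
  unfold htriple
  fin_cases i
  · exact le_max_left _ _
  · exact le_trans (le_max_left _ _) (le_max_right _ _)
  · exact le_trans (le_max_right _ _) (le_max_right _ _)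

/-- the vector of top coefficients of a coprime triple is nonzero -/
theorem bp_top_ne_zero (w : Fin 3 → k[X]) (h : Cop3 (w 0) (w 1) (w 2)) :
    (fun i => (w i).coeff (htriple (w 0) (w 1) (w 2))) ≠ 0 := by
  intro h0
  have hc : ∀ i, (w i).coeff (htriple (w 0) (w 1) (w 2)) = 0 := fun i => congrFun h0 i
  set s := htriple (w 0) (w 1) (w 2) with hs
  have hle : ∀ i, (w i).natDegree ≤ s := bp_natDegree_le_htriple w
  -- every `w i` has `natDegree < s` or is zero
  have hz : ∀ i, w i = 0 ∨ (w i).natDegree < s := by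
    intro i
    by_cases hi : w i = 0
    · exact Or.inl hi
    · right
      refine lt_of_le_of_ne (hle i) fun heq => ?_
      have := hc i
      rw [← heq, coeff_natDegree, leadingCoeff_eq_zero] at this
      exact hi this
  by_cases hs0 : s = 0
  · -- all zero, contradiction with coprimality
    have hall : ∀ i, w i = 0 := fun i => (hz i).resolve_right (by rw [hs0]; exact Nat.not_lt_zero _)
    obtain ⟨u, v, t, huv⟩ := h
    rw [hall 0, hall 1, hall 2] at huv
    simp at huv
  · -- all degrees `< s`, contradiction with the definition of `s`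
    have hlt : ∀ i, (w i).natDegree < s := by
      intro i
      rcases hz i with h1 | h1
      · rw [h1, natDegree_zero]; exact Nat.pos_of_ne_zero hs0
      · exact h1
    have : s < s := by
      conv_lhs => rw [hs]
      unfold htriple
      exact max_lt (hlt 0) (max_lt (hlt 1) (hlt 2))
    exact lt_irrefl _ this

/-- L2 -/
theorem htriple_addSubMap (W : WeierstrassCurve k) [W.IsElliptic] (w : Fin 3 → k[X])
    (h : Cop3 (w 0) (w 1) (w 2)) :
    htriple (MvPolynomial.aeval w (W.addSubMap 0)) (MvPolynomial.aeval w (W.addSubMap 1))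
      (MvPolynomial.aeval w (W.addSubMap 2)) = 2 * htriple (w 0) (w 1) (w 2) := by
  set s := htriple (w 0) (w 1) (w 2) with hs
  have hle : ∀ i, (w i).natDegree ≤ s := bp_natDegree_le_htriple w
  have h0 := bp_natDegree_le_zero W w hle
  have h1 := bp_natDegree_le_one W w hle
  have h2 := bp_natDegree_le_two W w hle
  rw [two_mul]
  apply le_antisymm
  · unfold htriple
    exact max_le h0 (max_le h1 h2)
  · -- some top coefficient is nonzero
    have hv := bp_top_ne_zero w h
    have hne := WeierstrassCurve.addSubMap_ne_zero W hv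
    have : ∃ j : Fin 3, MvPolynomial.eval (fun i => (w i).coeff s) (W.addSubMap j) ≠ 0 := by
      by_contra hcon
      exact hne (funext fun j => by
        by_contra hj
        exact hcon ⟨j, hj⟩)
    obtain ⟨j, hj⟩ := this
    have hcoeff : (MvPolynomial.aeval w (W.addSubMap j)).coeff (s + s) ≠ 0 := by
      fin_cases j
      · rw [Fin.zero_eta, bp_coeff_zero W w hle]; exact hj
      · rw [Fin.mk_one, bp_coeff_one W w hle]; exact hj
      · rw [show (⟨2, by decide⟩ : Fin 3) = 2 from rfl, bp_coeff_two W w hle]; exact hj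
    have hdeg := le_natDegree_of_ne_zero hcoeff
    refine hdeg.trans ?_
    exact bp_natDegree_le_htriple (fun i => MvPolynomial.aeval w (W.addSubMap i)) j

end Fermat.Agent.F1
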