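import Fermat.Agent.F1.Defs

/-!
# F1 / Compose: degree of a composition of rational functions (owner: helper10)
`f/g` in lowest terms of height `n`, `a/b` in lowest terms: `(f/g)∘(a/b) = hom2 n f a b / hom2 n g a b`
is in lowest terms and has height `n * h(a/b)`.
-/

set_option autoImplicit false

open Polynomial

namespace Fermat.Agent.F1

variable {k : Type*} [Field k]

/-- Image of `hom2` under a ring homomorphism out of `k[X]`. -/
lemma compose_map_hom2 {S : Type*} [CommRing S] (φ : k[X] →+* S) (n : ℕ) (f a b : k[X]) :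
    φ (hom2 n f a b)
      = ∑ i ∈ Finset.range (n + 1), φ (C (f.coeff i)) * φ a ^ i * φ b ^ (n - i) := by
  simp only [hom2, map_sum, map_mul, map_pow]

theorem hom2_eval (n : ℕ) (f a b : k[X]) (hn : f.natDegree ≤ n) {L : Type*} [Field L] [Algebra k L]
    (ξ : L) (hb : aeval ξ b ≠ 0) :
    aeval ξ (hom2 n f a b) = (aeval ξ b) ^ n * aeval (aeval ξ a / aeval ξ b) f := by
  rw [aeval_eq_sum_range' (Nat.lt_succ_of_le hn), Finset.mul_sum]
  simp only [hom2, map_sum, map_mul, map_pow, aeval_C]
  refine Finset.sum_congr rfl fun i hi => ?_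
  have hi' : i ≤ n := Nat.lt_succ_iff.mp (Finset.mem_range.mp hi)
  rw [Algebra.smul_def, div_pow]
  have : (aeval ξ b) ^ n = (aeval ξ b) ^ i * (aeval ξ b) ^ (n - i) := by
    rw [← pow_add, Nat.add_sub_cancel' hi']
  rw [this]
  field_simp

/-- The top coefficient of `hom2`: if `a`, `b` have degree at most `m`, the coefficient of
`X ^ (n * m)` in `hom2 n f a b` is the binary form of `f` at the top coefficients of `a`, `b`. -/
lemma compose_coeff_hom2 (n m : ℕ) (f a b : k[X]) (ha : a.natDegree ≤ m) (hb : b.natDegree ≤ m) :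
    (hom2 n f a b).coeff (n * m)
      = ∑ i ∈ Finset.range (n + 1), f.coeff i * a.coeff m ^ i * b.coeff m ^ (n - i) := by
  rw [hom2, finsetSum_coeff]
  refine Finset.sum_congr rfl fun i hi => ?_
  have hi' : i ≤ n := Nat.lt_succ_iff.mp (Finset.mem_range.mp hi)
  have hdeg : n * m = i * m + (n - i) * m := by
    rw [← Nat.add_mul, Nat.add_sub_cancel' hi']
  have h1 : (a ^ i).natDegree ≤ i * m := natDegree_pow_le_of_le i ha
  have h2 : (b ^ (n - i)).natDegree ≤ (n - i) * m := natDegree_pow_le_of_le (n - i) hb
  rw [mul_assoc, coeff_C_mul, hdeg, coeff_mul_add_eq_of_natDegree_le h1 h2,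
    coeff_pow_of_natDegree_le ha, coeff_pow_of_natDegree_le hb, mul_assoc]

lemma compose_natDegree_hom2_le (n m : ℕ) (f a b : k[X]) (ha : a.natDegree ≤ m)
    (hb : b.natDegree ≤ m) : (hom2 n f a b).natDegree ≤ n * m := by
  rw [hom2]
  refine natDegree_sum_le_of_forall_le _ _ fun i hi => ?_
  have hi' : i ≤ n := Nat.lt_succ_iff.mp (Finset.mem_range.mp hi)
  have hdeg : n * m = 0 + i * m + (n - i) * m := by
    rw [zero_add, ← Nat.add_mul, Nat.add_sub_cancel' hi']
  rw [hdeg]
  exact natDegree_mul_le_of_le
    (natDegree_mul_le_of_le (natDegree_C _).le (natDegree_pow_le_of_le i ha))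
    (natDegree_pow_le_of_le (n - i) hb)

/-- Binary forms attached to coprime polynomials have no common zero: the pair
`(∑ fᵢ αⁱ βⁿ⁻ⁱ, ∑ gᵢ αⁱ βⁿ⁻ⁱ)`, `n = max (deg f) (deg g)`, vanishes only at `(α, β) = (0, 0)`.
Here `α, β` live in a field extension `L` of `k`. -/
lemma compose_no_common_zero (f g : k[X]) (hfg : IsCoprime f g) {L : Type*} [Field L]
    [Algebra k L] (α β : L)
    (hF : ∑ i ∈ Finset.range (hpair f g + 1),
      algebraMap k L (f.coeff i) * α ^ i * β ^ (hpair f g - i) = 0)
    (hG : ∑ i ∈ Finset.range (hpair f g + 1),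
      algebraMap k L (g.coeff i) * α ^ i * β ^ (hpair f g - i) = 0) :
    α = 0 ∧ β = 0 := by
  set n := hpair f g with hn
  have hfn : f.natDegree ≤ n := le_max_left _ _
  have hgn : g.natDegree ≤ n := le_max_right _ _
  have hinj : Function.Injective (algebraMap k L) := (algebraMap k L).injective
  by_cases hβ : β = 0
  · refine ⟨?_, hβ⟩
    -- only the term `i = n` survives
    have key : ∀ p : k[X], ∑ i ∈ Finset.range (n + 1),
        algebraMap k L (p.coeff i) * α ^ i * β ^ (n - i) = algebraMap k L (p.coeff n) * α ^ n := by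
      intro p
      rw [Finset.sum_eq_single n]
      · simp
      · intro i hi hin
        have hi' : i < n := lt_of_le_of_ne (Nat.lt_succ_iff.mp (Finset.mem_range.mp hi)) hin
        have : n - i ≠ 0 := by omega
        rw [hβ, zero_pow this, mul_zero]
      · intro h
        exact absurd (Finset.mem_range.mpr (Nat.lt_succ_self n)) h
    rw [key f] at hF
    rw [key g] at hG
    -- one of the top coefficients is nonzero
    have htop : f.coeff n ≠ 0 ∨ g.coeff n ≠ 0 := by
      by_contra hcon
      obtain ⟨hf0, hg0⟩ := not_or.mp hcon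
      rw [not_not] at hf0 hg0
      rcases le_total f.natDegree g.natDegree with h | h
      · have hn' : n = g.natDegree := by rw [hn, hpair, max_eq_right h]
        rw [hn', coeff_natDegree, leadingCoeff_eq_zero] at hg0
        have hf0' : f = 0 := by
          have : f.natDegree = 0 := by
            have := h; rw [hg0, natDegree_zero] at this; omega
          rw [hn', hg0, natDegree_zero] at hf0
          rw [eq_C_of_natDegree_eq_zero this, hf0, map_zero]
        rw [hf0', hg0] at hfg
        exact not_isCoprime_zero_zero hfg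
      · have hn' : n = f.natDegree := by rw [hn, hpair, max_eq_left h]
        rw [hn', coeff_natDegree, leadingCoeff_eq_zero] at hf0
        have hg0' : g = 0 := by
          have : g.natDegree = 0 := by
            have := h; rw [hf0, natDegree_zero] at this; omega
          rw [hn', hf0, natDegree_zero] at hg0
          rw [eq_C_of_natDegree_eq_zero this, hg0, map_zero]
        rw [hf0, hg0'] at hfg
        exact not_isCoprime_zero_zero hfg
    have hαn : α ^ n = 0 := by
      rcases htop with h | h
      · have h' : algebraMap k L (f.coeff n) ≠ 0 := fun h0 => h (hinj (by rw [h0, map_zero]))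
        exact (mul_eq_zero.mp hF).resolve_left h'
      · have h' : algebraMap k L (g.coeff n) ≠ 0 := fun h0 => h (hinj (by rw [h0, map_zero]))
        exact (mul_eq_zero.mp hG).resolve_left h'
    have hn0 : n ≠ 0 := by
      intro h0
      rw [h0, pow_zero] at hαn
      exact one_ne_zero hαn
    exact (pow_eq_zero_iff hn0).mp hαn
  · exfalso
    -- evaluate at `t = α / β`
    have key : ∀ p : k[X], p.natDegree ≤ n → ∑ i ∈ Finset.range (n + 1),
        algebraMap k L (p.coeff i) * α ^ i * β ^ (n - i) = β ^ n * aeval (α / β) p := by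
      intro p hp
      rw [aeval_eq_sum_range' (Nat.lt_succ_of_le hp), Finset.mul_sum]
      refine Finset.sum_congr rfl fun i hi => ?_
      have hi' : i ≤ n := Nat.lt_succ_iff.mp (Finset.mem_range.mp hi)
      rw [Algebra.smul_def, div_pow]
      have : β ^ n = β ^ i * β ^ (n - i) := by rw [← pow_add, Nat.add_sub_cancel' hi']
      rw [this]
      field_simp
    rw [key f hfn] at hF
    rw [key g hgn] at hG
    have hβn : β ^ n ≠ 0 := pow_ne_zero n hβ
    have hf0 : aeval (α / β) f = 0 := (mul_eq_zero.mp hF).resolve_left hβn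
    have hg0 : aeval (α / β) g = 0 := (mul_eq_zero.mp hG).resolve_left hβn
    obtain ⟨u, v, huv⟩ := hfg
    have := congrArg (aeval (α / β)) huv
    rw [map_add, map_mul, map_mul, hf0, hg0, mul_zero, mul_zero, add_zero, map_one] at this
    exact zero_ne_one this

theorem isCoprime_hom2 (f g a b : k[X]) (hfg : IsCoprime f g) (hab : IsCoprime a b) :
    IsCoprime (hom2 (hpair f g) f a b) (hom2 (hpair f g) g a b) := by
  set n := hpair f g with hn
  rw [← Ideal.isCoprime_span_singleton_iff, Ideal.isCoprime_iff_sup_eq]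
  by_contra htop
  obtain ⟨M, hM, hle⟩ := Ideal.exists_le_maximal _ htop
  let _ : Field (k[X] ⧸ M) := Ideal.Quotient.field M
  let q : k[X] →ₐ[k] (k[X] ⧸ M) := Ideal.Quotient.mkₐ k M
  have hFM : hom2 n f a b ∈ M :=
    hle (Ideal.mem_sup_left (Ideal.mem_span_singleton_self _))
  have hGM : hom2 n g a b ∈ M :=
    hle (Ideal.mem_sup_right (Ideal.mem_span_singleton_self _))
  have hqF : q (hom2 n f a b) = 0 := Ideal.Quotient.eq_zero_iff_mem.mpr hFM
  have hqG : q (hom2 n g a b) = 0 := Ideal.Quotient.eq_zero_iff_mem.mpr hGM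
  have hC : ∀ c : k, q (C c) = algebraMap k (k[X] ⧸ M) c := fun c => by
    rw [← algebraMap_eq, AlgHom.commutes]
  have hexp : ∀ p : k[X], q (hom2 n p a b) = ∑ i ∈ Finset.range (n + 1),
      algebraMap k (k[X] ⧸ M) (p.coeff i) * q a ^ i * q b ^ (n - i) := by
    intro p
    simp only [hom2, map_sum, map_mul, map_pow, hC]
  rw [hexp f] at hqF
  rw [hexp g] at hqG
  obtain ⟨ha0, hb0⟩ := compose_no_common_zero f g hfg (q a) (q b) hqF hqG
  have haM : a ∈ M := Ideal.Quotient.eq_zero_iff_mem.mp ha0
  have hbM : b ∈ M := Ideal.Quotient.eq_zero_iff_mem.mp hb0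
  obtain ⟨u, v, huv⟩ := hab
  have h1 : (1 : k[X]) ∈ M := by
    rw [← huv]
    exact M.add_mem (M.mul_mem_left u haM) (M.mul_mem_left v hbM)
  exact hM.ne_top ((Ideal.eq_top_iff_one M).mpr h1)

theorem hpair_hom2 (f g a b : k[X]) (hfg : IsCoprime f g) (hab : IsCoprime a b) :
    hpair (hom2 (hpair f g) f a b) (hom2 (hpair f g) g a b) = hpair f g * hpair a b := by
  set n := hpair f g with hn
  set m := hpair a b with hm
  have ham : a.natDegree ≤ m := le_max_left _ _
  have hbm : b.natDegree ≤ m := le_max_right _ _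
  refine le_antisymm (max_le (compose_natDegree_hom2_le n m f a b ham hbm)
    (compose_natDegree_hom2_le n m g a b ham hbm)) ?_
  -- the top coefficients of `a`, `b` are not both zero
  have hAB : ¬ (a.coeff m = 0 ∧ b.coeff m = 0) := by
    rintro ⟨hA, hB⟩
    rcases le_total a.natDegree b.natDegree with h | h
    · have hm' : m = b.natDegree := by rw [hm, hpair, max_eq_right h]
      rw [hm', coeff_natDegree, leadingCoeff_eq_zero] at hB
      have ha0 : a = 0 := by
        have : a.natDegree = 0 := by
          have := h; rw [hB, natDegree_zero] at this; omega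
        rw [hm', hB, natDegree_zero] at hA
        rw [eq_C_of_natDegree_eq_zero this, hA, map_zero]
      rw [ha0, hB] at hab
      exact not_isCoprime_zero_zero hab
    · have hm' : m = a.natDegree := by rw [hm, hpair, max_eq_left h]
      rw [hm', coeff_natDegree, leadingCoeff_eq_zero] at hA
      have hb0 : b = 0 := by
        have : b.natDegree = 0 := by
          have := h; rw [hA, natDegree_zero] at this; omega
        rw [hm', hA, natDegree_zero] at hB
        rw [eq_C_of_natDegree_eq_zero this, hB, map_zero]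
      rw [hA, hb0] at hab
      exact not_isCoprime_zero_zero hab
  -- one of the two coefficients of `X ^ (n * m)` is nonzero
  have hcoeff : (hom2 n f a b).coeff (n * m) ≠ 0 ∨ (hom2 n g a b).coeff (n * m) ≠ 0 := by
    by_contra hcon
    obtain ⟨hF, hG⟩ := not_or.mp hcon
    rw [not_not] at hF hG
    rw [compose_coeff_hom2 n m f a b ham hbm] at hF
    rw [compose_coeff_hom2 n m g a b ham hbm] at hG
    exact hAB (compose_no_common_zero (L := k) f g hfg (a.coeff m) (b.coeff m)
      (by simpa using hF) (by simpa using hG))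
  rcases hcoeff with h | h
  · exact le_max_of_le_left (le_natDegree_of_ne_zero h)
  · exact le_max_of_le_right (le_natDegree_of_ne_zero h)

end Fermat.Agent.F1
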