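import Fermat.Agent.F1.Defs
import Fermat.Agent.F1.TransferAux

/-!
# F1 / Transfer: from the generic identity to every point of `E(k)` (owner: helper96)

`charPt a Q = φ(φ Q) - a • φ Q + ℓ • Q`.  If `2 • charPt a P = 0` for every point `P = (ξ, η)` with
transcendental `ξ` in every field `L ⊇ k`, then `charPt a = 0` on `E(k)` (`k` algebraically closed):
take `L = AlgebraicClosure (RatFunc k)`, translate a generic point by `R ∈ E(k)`, and use that `E(k)` is
`2`-divisible.
-/

set_option autoImplicit false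

open Polynomial WeierstrassCurve WeierstrassCurve.Affine

namespace Fermat.Agent.F1

open Fermat.Agent.S52 (shortW frobPt)

/-- `φ² - a φ + ℓ` on points. -/
noncomputable def charPt {ℓ : ℕ} [Fact ℓ.Prime] (E : WeierstrassCurve (ZMod ℓ)) (a : ℤ)
    (L : Type*) [Field L] [Algebra (ZMod ℓ) L] [DecidableEq L] (Q : (E⁄L).Point) : (E⁄L).Point :=
  frobPt E L (frobPt E L Q) - a • frobPt E L Q + (ℓ : ℤ) • Q

/-- the generic identity, as a hypothesis -/
def GenericIdentity {ℓ : ℕ} [Fact ℓ.Prime] (A B : ZMod ℓ) (a : ℤ)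
    (k : Type) [Field k] [Algebra (ZMod ℓ) k] : Prop :=
  ∀ (L : Type) [Field L] [Algebra (ZMod ℓ) L] [Algebra k L] [IsScalarTower (ZMod ℓ) k L]
    [DecidableEq L] (ξ η : L) (hns : ((shortW A B)⁄L).Nonsingular ξ η),
    Transcendental k ξ → 2 • charPt (shortW A B) a L (Point.some ξ η hns) = 0

section Aux

variable {ℓ : ℕ} [Fact ℓ.Prime] (E : WeierstrassCurve (ZMod ℓ)) (a : ℤ)

lemma transfer_charPt_add (L : Type*) [Field L] [Algebra (ZMod ℓ) L] [DecidableEq L]
    (P Q : (E⁄L).Point) : charPt E a L (P + Q) = charPt E a L P + charPt E a L Q := by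
  simp only [charPt, map_add, smul_add]
  abel

lemma transfer_charPt_two_nsmul (L : Type*) [Field L] [Algebra (ZMod ℓ) L] [DecidableEq L]
    (P : (E⁄L).Point) : charPt E a L (2 • P) = 2 • charPt E a L P := by
  rw [two_nsmul, two_nsmul, transfer_charPt_add]

/-- Frobenius on points commutes with `Point.map`. -/
lemma transfer_frobPt_map {M N : Type*} [Field M] [Field N]
    [Algebra (ZMod ℓ) M] [Algebra (ZMod ℓ) N] [DecidableEq M] [DecidableEq N]
    (ι : M →ₐ[ZMod ℓ] N) (P : (E⁄M).Point) :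
    frobPt E N (Affine.Point.map (W' := E) ι P) = Affine.Point.map (W' := E) ι (frobPt E M P) := by
  unfold frobPt
  rw [Affine.Point.map_map, Affine.Point.map_map]
  have h : (FiniteField.frobeniusAlgHom (ZMod ℓ) N).comp ι
      = ι.comp (FiniteField.frobeniusAlgHom (ZMod ℓ) M) := by
    ext x
    simp [FiniteField.coe_frobeniusAlgHom]
  rw [h]

lemma transfer_charPt_map {M N : Type*} [Field M] [Field N]
    [Algebra (ZMod ℓ) M] [Algebra (ZMod ℓ) N] [DecidableEq M] [DecidableEq N]
    (ι : M →ₐ[ZMod ℓ] N) (P : (E⁄M).Point) :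
    charPt E a N (Affine.Point.map (W' := E) ι P)
      = Affine.Point.map (W' := E) ι (charPt E a M P) := by
  simp only [charPt, transfer_frobPt_map, map_add, map_sub, map_zsmul]

end Aux

theorem transfer {ℓ : ℕ} [Fact ℓ.Prime] (hℓ : 5 ≤ ℓ) (A B : ZMod ℓ) (hΔ : (shortW A B).Δ ≠ 0)
    (a : ℤ) (k : Type) [Field k] [Algebra (ZMod ℓ) k] [IsAlgClosed k] [DecidableEq k]
    (hgen : GenericIdentity A B a k) (P : ((shortW A B)⁄k).Point) :
    charPt (shortW A B) a k P = 0 := by
  classical
  -- Step 1: `2 • charPt R = 0` for every `R ∈ E(k)` (translation of a generic point)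
  have h2 : ∀ R : ((shortW A B)⁄k).Point, 2 • charPt (shortW A B) a k R = 0 := by
    intro R
    obtain ⟨ξ, η, hns, hξ⟩ := transfer_exists_generic (shortW A B) hΔ k
    obtain ⟨ξ', η', hns', hξ', hsum⟩ := transfer_translate (shortW A B) hns hξ R
    have e1 := hgen (AlgebraicClosure (RatFunc k)) ξ η hns hξ
    have e2 := hgen (AlgebraicClosure (RatFunc k)) ξ' η' hns' hξ'
    rw [← hsum, transfer_charPt_add, smul_add, e1, zero_add, transfer_charPt_map, ← map_nsmul]
      at e2
    exact Affine.Point.map_injective _ (e2.trans (map_zero _).symm)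
  -- Step 2: `E(k)` is `2`-divisible
  have h2k : (2 : k) ≠ 0 := by
    have h2' : (2 : ZMod ℓ) ≠ 0 := by
      intro h
      have : ((2 : ℕ) : ZMod ℓ) = 0 := by exact_mod_cast h
      rw [ZMod.natCast_eq_zero_iff] at this
      have := Nat.le_of_dvd (by norm_num) this
      omega
    have : (2 : k) = algebraMap (ZMod ℓ) k 2 := (map_ofNat (algebraMap (ZMod ℓ) k) 2).symm
    rw [this]
    exact (map_ne_zero_iff _ (FaithfulSMul.algebraMap_injective (ZMod ℓ) k)).mpr h2'
  have hΔk : ((shortW A B)⁄k).Δ ≠ 0 := by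
    have : ((shortW A B)⁄k).Δ = algebraMap (ZMod ℓ) k (shortW A B).Δ :=
      WeierstrassCurve.map_Δ (shortW A B) (algebraMap (ZMod ℓ) k)
    rw [this]
    exact (map_ne_zero_iff _ (FaithfulSMul.algebraMap_injective (ZMod ℓ) k)).mpr hΔ
  obtain ⟨Q, hQ⟩ := transfer_exists_two_nsmul ((shortW A B)⁄k)
    (by simp [shortW, WeierstrassCurve.Affine.baseChange])
    (by simp [shortW, WeierstrassCurve.Affine.baseChange])
    (by simp [shortW, WeierstrassCurve.Affine.baseChange]) hΔk h2k P
  rw [← hQ, transfer_charPt_two_nsmul]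
  exact h2 Q

end Fermat.Agent.F1
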