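import Fermat.Agent.F1.Mult
import Fermat.Agent.F1.QuadEndgame
import Fermat.Agent.F1.Transfer

/-!
# F1 / Final: `FrobCharEq` (owner: helper4)
-/

set_option autoImplicit false

open Polynomial WeierstrassCurve WeierstrassCurve.Affine IntermediateField

namespace Fermat.Agent.F1

open Fermat.Agent.S52 (shortW frobPt)

variable {ℓ : ℕ} [Fact ℓ.Prime] {A B : ZMod ℓ}

theorem generic_identity (hℓ : 5 ≤ ℓ) (hΔ : (shortW A B).Δ ≠ 0)
    (k : Type) [Field k] [Algebra (ZMod ℓ) k] :
    GenericIdentity A B (shortW A B).traceOfFrobenius k := by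
  intro L _ _ _ _ _ ξ η hns htr
  haveI : (shortW A B).IsElliptic := ⟨isUnit_iff_ne_zero.mpr hΔ⟩
  have hW : ((shortW A B).map (algebraMap (ZMod ℓ) k)).map (algebraMap k L) = (shortW A B)⁄L := by
    rw [WeierstrassCurve.map_map, ← IsScalarTower.algebraMap_eq]
    rfl
  -- the height on the group of odd-rational points
  let d : oddRat k hns → ℤ := fun Q => (ht k ξ (Q : ((shortW A B)⁄L).Point) : ℤ)
  have hpar : Fermat.Agent.F1Quad.Parallelogram d := by
    intro x y
    have h := ht_parallelogram ((shortW A B).map (algebraMap (ZMod ℓ) k)) hW htr x.1 y.1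
      (exists_xRat_of_mem k hns x.2) (exists_xRat_of_mem k hns y.2)
      (exists_xRat_of_mem k hns (x + y).2) (exists_xRat_of_mem k hns (x - y).2)
    simp only [d, AddSubgroup.coe_add, AddSubgroup.coe_sub]
    exact_mod_cast h
  -- Frobenius on the group
  let φ : oddRat k hns →+ oddRat k hns :=
    ((frobPt (shortW A B) L).comp (oddRat k hns).subtype).codRestrict (oddRat k hns)
      (fun Q => frob_mem_oddRat k hns hℓ Q.2)
  have hφ : ∀ x, d (φ x) = ℓ * d x := by
    intro x
    have h := ht_frob k htr (exists_xRat_of_mem k hns x.2)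
    simp only [d]
    exact_mod_cast h
  have hφc : ∀ x : oddRat k hns, ((φ x : oddRat k hns) : ((shortW A B)⁄L).Point)
      = frobPt (shortW A B) L x := fun x => rfl
  let e : oddRat k hns := ⟨Point.some ξ η hns, gen_mem_oddRat k hns⟩
  have he : d e = 1 := by
    simp only [d, e]
    exact_mod_cast ht_gen k hns htr
  have hsubfrob : ∀ x : oddRat k hns, d (x - φ x) = ((ℓ : ℤ) + 1 - (shortW A B).traceOfFrobenius) * d x := by
    intro x
    have h := ht_sub_frob k hns hℓ hΔ htr x.2
    simp only [d, AddSubgroup.coe_sub, hφc]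
    exact h
  have hf : d (φ e) = ℓ := by rw [hφ, he, mul_one]
  have hg : d (φ (φ e)) = (ℓ : ℤ) ^ 2 := by rw [hφ, hf]; ring
  have hgf : d (φ (φ e) + φ e) = ℓ * d (φ e + e) := by rw [← map_add, hφ]
  have hN : d (φ e - e) = (ℓ : ℤ) + 1 - (shortW A B).traceOfFrobenius := by
    rw [hpar.map_sub_comm, hsubfrob, he, mul_one]
  have hge : d (φ (φ e) - e) = d (φ e - e) * d (φ e + e) := by
    rw [hN, hpar.map_sub_comm]
    have h := hsubfrob (φ e + e)
    have e1 : φ e + e - φ (φ e + e) = e - φ (φ e) := by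
      rw [map_add]; abel
    rw [e1] at h
    exact h
  have hend := hpar.endgame e (φ e) (φ (φ e)) (ℓ : ℤ) _ he hf hg hgf hge hN
  have e2 : (ℓ : ℤ) + 1 - ((ℓ : ℤ) + 1 - (shortW A B).traceOfFrobenius)
      = (shortW A B).traceOfFrobenius := by ring
  rw [e2] at hend
  have h0 : ht k ξ ((φ (φ e) - (shortW A B).traceOfFrobenius • φ e + (ℓ : ℤ) • e : oddRat k hns) :
      ((shortW A B)⁄L).Point) = 0 := by
    simp only [d] at hend
    exact_mod_cast hend
  have h2 := two_nsmul_eq_zero_of_ht_eq_zero k hns hℓ htr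
    (φ (φ e) - (shortW A B).traceOfFrobenius • φ e + (ℓ : ℤ) • e : oddRat k hns).2 h0
  simpa [charPt, e, hφc] using h2

theorem frobCharEq : Fermat.Agent.S52.FrobCharEq := by
  intro ℓ _ hℓ A B hΔ k _ _ _ _ P
  exact transfer hℓ A B hΔ _ k (generic_identity hℓ hΔ k) P

end Fermat.Agent.F1
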