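import Fermat.Agent.F1.Defs

/-!
# F1 / Height: the two bookkeeping lemmas L1, L3 (owner: helper64)
-/

set_option autoImplicit false

open Polynomial

namespace Fermat.Agent.F1

variable {k : Type*} [Field k]

/-- multiplying by a unit does not change `natDegree` -/
theorem height_natDegree_mul_of_mul_eq_one (a l m : k[X]) (h : l * m = 1) :
    (a * l).natDegree = a.natDegree := by
  by_cases ha : a = 0
  · simp [ha]
  have hl : l ≠ 0 := by
    rintro rfl
    simp at h
  have hu : IsUnit l := .of_mul_eq_one m h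
  rw [Polynomial.natDegree_mul ha hl, Polynomial.natDegree_eq_zero_of_isUnit hu, add_zero]

/-- the top coefficients (at the height) of a coprime pair do not both vanish -/
theorem height_coeff_hpair_ne_zero (f g : k[X]) (h : IsCoprime f g) :
    f.coeff (hpair f g) ≠ 0 ∨ g.coeff (hpair f g) ≠ 0 := by
  unfold hpair
  rcases le_total f.natDegree g.natDegree with hle | hle
  · rw [max_eq_right hle]
    by_cases hg : g = 0
    · subst hg
      have hf : IsUnit f := isCoprime_zero_right.mp h
      left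
      rw [Polynomial.natDegree_zero]
      have h0 : f.natDegree = 0 := Polynomial.natDegree_eq_zero_of_isUnit hf
      have hne : f ≠ 0 := hf.ne_zero
      rw [← h0]
      exact Polynomial.leadingCoeff_ne_zero.mpr hne
    · right
      exact Polynomial.leadingCoeff_ne_zero.mpr hg
  · rw [max_eq_left hle]
    by_cases hf : f = 0
    · subst hf
      have hg : IsUnit g := isCoprime_zero_left.mp h
      right
      rw [Polynomial.natDegree_zero]
      have h0 : g.natDegree = 0 := Polynomial.natDegree_eq_zero_of_isUnit hg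
      have hne : g ≠ 0 := hg.ne_zero
      rw [← h0]
      exact Polynomial.leadingCoeff_ne_zero.mpr hne
    · left
      exact Polynomial.leadingCoeff_ne_zero.mpr hf

/-- L1: `[1 : z₁+z₂ : z₁z₂]` has height `h(z₁)+h(z₂)`. -/
theorem cop3_sym (f₁ g₁ f₂ g₂ : k[X]) (h₁ : IsCoprime f₁ g₁) (h₂ : IsCoprime f₂ g₂) :
    Cop3 (g₁ * g₂) (f₁ * g₂ + f₂ * g₁) (f₁ * f₂) := by
  obtain ⟨U₁, V₁, h1⟩ := (h₁.pow (m := 2) (n := 2))
  obtain ⟨U₂, V₂, h2⟩ := (h₂.pow (m := 2) (n := 2))
  refine ⟨V₁ * V₂ * (g₁ * g₂) - (U₁ * V₂ + V₁ * U₂) * (f₁ * f₂),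
    U₁ * V₂ * f₁ * g₂ + V₁ * U₂ * g₁ * f₂, U₁ * U₂ * (f₁ * f₂), ?_⟩
  linear_combination (U₂ * f₂ ^ 2 + V₂ * g₂ ^ 2) * h1 + h2

theorem htriple_sym (f₁ g₁ f₂ g₂ : k[X]) (h₁ : IsCoprime f₁ g₁) (h₂ : IsCoprime f₂ g₂) :
    htriple (g₁ * g₂) (f₁ * g₂ + f₂ * g₁) (f₁ * f₂) = hpair f₁ g₁ + hpair f₂ g₂ := by
  have hf₁ : f₁.natDegree ≤ hpair f₁ g₁ := le_max_left _ _
  have hg₁ : g₁.natDegree ≤ hpair f₁ g₁ := le_max_right _ _
  have hf₂ : f₂.natDegree ≤ hpair f₂ g₂ := le_max_left _ _
  have hg₂ : g₂.natDegree ≤ hpair f₂ g₂ := le_max_right _ _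
  set d₁ := hpair f₁ g₁ with hd₁
  set d₂ := hpair f₂ g₂ with hd₂
  have ha : (g₁ * g₂).natDegree ≤ d₁ + d₂ :=
    Polynomial.natDegree_mul_le.trans (add_le_add hg₁ hg₂)
  have hc : (f₁ * f₂).natDegree ≤ d₁ + d₂ :=
    Polynomial.natDegree_mul_le.trans (add_le_add hf₁ hf₂)
  have hb : (f₁ * g₂ + f₂ * g₁).natDegree ≤ d₁ + d₂ := by
    refine (Polynomial.natDegree_add_le _ _).trans (max_le ?_ ?_)
    · exact Polynomial.natDegree_mul_le.trans (add_le_add hf₁ hg₂)
    · exact Polynomial.natDegree_mul_le.trans (by rw [add_comm d₁ d₂]; exact add_le_add hf₂ hg₁)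
  have ca : (g₁ * g₂).coeff (d₁ + d₂) = g₁.coeff d₁ * g₂.coeff d₂ :=
    Polynomial.coeff_mul_add_eq_of_natDegree_le hg₁ hg₂
  have cc : (f₁ * f₂).coeff (d₁ + d₂) = f₁.coeff d₁ * f₂.coeff d₂ :=
    Polynomial.coeff_mul_add_eq_of_natDegree_le hf₁ hf₂
  have cb : (f₁ * g₂ + f₂ * g₁).coeff (d₁ + d₂) =
      f₁.coeff d₁ * g₂.coeff d₂ + f₂.coeff d₂ * g₁.coeff d₁ := by
    rw [Polynomial.coeff_add, Polynomial.coeff_mul_add_eq_of_natDegree_le hf₁ hg₂]
    congr 1
    rw [add_comm d₁ d₂]
    exact Polynomial.coeff_mul_add_eq_of_natDegree_le hf₂ hg₁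
  have key : (g₁ * g₂).coeff (d₁ + d₂) ≠ 0 ∨ (f₁ * g₂ + f₂ * g₁).coeff (d₁ + d₂) ≠ 0 ∨
      (f₁ * f₂).coeff (d₁ + d₂) ≠ 0 := by
    by_contra hcon
    push Not at hcon
    obtain ⟨e1, e2, e3⟩ := hcon
    rw [ca] at e1
    rw [cb] at e2
    rw [cc] at e3
    have n1 := height_coeff_hpair_ne_zero f₁ g₁ h₁
    have n2 := height_coeff_hpair_ne_zero f₂ g₂ h₂
    rw [← hd₁] at n1
    rw [← hd₂] at n2
    rcases mul_eq_zero.mp e1 with z | z
    · -- g₁ top coeff = 0, so f₁ top coeff ≠ 0
      have nf₁ : f₁.coeff d₁ ≠ 0 := by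
        rcases n1 with n | n
        · exact n
        · exact absurd z n
      have zf₂ : f₂.coeff d₂ = 0 := by
        rcases mul_eq_zero.mp e3 with w | w
        · exact absurd w nf₁
        · exact w
      have ng₂ : g₂.coeff d₂ ≠ 0 := by
        rcases n2 with n | n
        · exact absurd zf₂ n
        · exact n
      rw [z, zf₂, zero_mul, add_zero] at e2
      exact (mul_ne_zero nf₁ ng₂) e2
    · have nf₂ : f₂.coeff d₂ ≠ 0 := by
        rcases n2 with n | n
        · exact n
        · exact absurd z n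
      have zf₁ : f₁.coeff d₁ = 0 := by
        rcases mul_eq_zero.mp e3 with w | w
        · exact w
        · exact absurd w nf₂
      have ng₁ : g₁.coeff d₁ ≠ 0 := by
        rcases n1 with n | n
        · exact absurd zf₁ n
        · exact n
      rw [z, zf₁, zero_mul, zero_add] at e2
      exact (mul_ne_zero nf₂ ng₁) e2
  apply le_antisymm
  · exact max_le ha (max_le hb hc)
  · rcases key with h | h | h
    · exact (Polynomial.le_natDegree_of_ne_zero h).trans (le_max_left _ _)
    · exact (Polynomial.le_natDegree_of_ne_zero h).trans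
        ((le_max_left _ _).trans (le_max_right _ _))
    · exact (Polynomial.le_natDegree_of_ne_zero h).trans
        ((le_max_right _ _).trans (le_max_right _ _))

/-- L3: proportional coprime triples have the same height. -/
theorem htriple_eq_of_prop (a b c a' b' c' : k[X]) (h : Cop3 a b c) (h' : Cop3 a' b' c')
    (hab : a * b' = a' * b) (hac : a * c' = a' * c) (hbc : b * c' = b' * c) :
    htriple a b c = htriple a' b' c' := by
  obtain ⟨u, v, w, e⟩ := h
  obtain ⟨u', v', w', e'⟩ := h'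
  set l := u * a' + v * b' + w * c' with hl
  set m := u' * a + v' * b + w' * c with hm
  have ea : a' = a * l := by
    rw [hl]; linear_combination (-a') * e - v * hab - w * hac
  have eb : b' = b * l := by
    rw [hl]; linear_combination (-b') * e + u * hab - w * hbc
  have ec : c' = c * l := by
    rw [hl]; linear_combination (-c') * e + u * hac + v * hbc
  have hlm : l * m = 1 := by
    have : m * l = 1 := by
      calc m * l = u' * (a * l) + v' * (b * l) + w' * (c * l) := by rw [hm]; ring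
        _ = u' * a' + v' * b' + w' * c' := by rw [← ea, ← eb, ← ec]
        _ = 1 := e'
    rw [mul_comm]; exact this
  unfold htriple
  rw [ea, eb, ec, height_natDegree_mul_of_mul_eq_one a l m hlm,
    height_natDegree_mul_of_mul_eq_one b l m hlm, height_natDegree_mul_of_mul_eq_one c l m hlm]

/-- L3 for pairs. -/
theorem hpair_eq_of_prop (f g f' g' : k[X]) (h : IsCoprime f g) (h' : IsCoprime f' g')
    (hfg : f * g' = f' * g) : hpair f g = hpair f' g' := by
  obtain ⟨u, v, e⟩ := h
  obtain ⟨u', v', e'⟩ := h'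
  set l := u * f' + v * g' with hl
  set m := u' * f + v' * g with hm
  have ea : f' = f * l := by
    rw [hl]; linear_combination (-f') * e - v * hfg
  have eb : g' = g * l := by
    rw [hl]; linear_combination (-g') * e + u * hfg
  have hlm : l * m = 1 := by
    have : m * l = 1 := by
      calc m * l = u' * (f * l) + v' * (g * l) := by rw [hm]; ring
        _ = u' * f' + v' * g' := by rw [← ea, ← eb]
        _ = 1 := e'
    rw [mul_comm]; exact this
  unfold hpair
  rw [ea, eb, height_natDegree_mul_of_mul_eq_one f l m hlm,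
    height_natDegree_mul_of_mul_eq_one g l m hlm]

end Fermat.Agent.F1
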