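import Fermat.Agent.F1.Defs
import Fermat.Agent.F1.Height
import Fermat.Agent.F1.BasePoint
import Fermat.Agent.F1.AddSub

/-!
# F1 / Ht: naive height of a point of `E(L)` relative to a transcendental `ξ ∈ L` (owner: helper4)

`k` a field, `L ⊇ k` a field, `ξ ∈ L` transcendental over `k`.  A point `Q ∈ E(L)` is *`ξ`-rational in x*
if its projective x-coordinate `Q.xRep = [x : 1]` (or `[1 : 0]`) is proportional to
`[f(ξ) : g(ξ)]` with `f, g ∈ k[X]` coprime; its height is `max (deg f) (deg g)`.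
-/

set_option autoImplicit false

open Polynomial WeierstrassCurve WeierstrassCurve.Affine

namespace Fermat.Agent.F1

variable {k : Type*} [Field k] {L : Type*} [Field L] [Algebra k L]

/-- `[f : g]` (coprime) represents the x-coordinate of `Q` at `ξ`. -/
def XRat {W' : Affine L} (ξ : L) (Q : W'.Point) (f g : k[X]) : Prop :=
  IsCoprime f g ∧ ∃ c : L, c ≠ 0 ∧ aeval ξ f = c * Q.xRep 0 ∧ aeval ξ g = c * Q.xRep 1

open Classical in
/-- auxiliary: the height of any pair satisfying `p` (junk value `0` if there is none). -/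
noncomputable def htAux (p : k[X] → k[X] → Prop) : ℕ :=
  if h : ∃ f g : k[X], p f g then hpair h.choose h.choose_spec.choose else 0

/-- the height of `Q` relative to `ξ` (junk value `0` if the x-coordinate is not in `k(ξ)`). -/
noncomputable def ht (k : Type*) [Field k] {L : Type*} [Field L] [Algebra k L]
    {W' : Affine L} (ξ : L) (Q : W'.Point) : ℕ :=
  htAux (XRat (k := k) ξ Q)

theorem xRat_cross {W' : Affine L} {ξ : L} (hξ : Transcendental k ξ) {Q : W'.Point}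
    {f g f' g' : k[X]} (h : XRat ξ Q f g) (h' : XRat ξ Q f' g') : f * g' = f' * g := by
  obtain ⟨-, c, -, hf, hg⟩ := h
  obtain ⟨-, c', -, hf', hg'⟩ := h'
  apply (transcendental_iff_injective.mp hξ)
  rw [map_mul, map_mul, hf, hg, hf', hg']
  ring

/-- well-definedness (uses L3 for pairs, `hpair_eq_of_prop`). -/
theorem ht_eq {W' : Affine L} {ξ : L} (hξ : Transcendental k ξ) {Q : W'.Point} {f g : k[X]}
    (h : XRat ξ Q f g) : ht k ξ Q = hpair f g := by
  have hex : ∃ f g : k[X], XRat ξ Q f g := ⟨f, g, h⟩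
  unfold ht htAux
  rw [dif_pos hex]
  have h' := hex.choose_spec.choose_spec
  exact hpair_eq_of_prop _ _ _ _ h'.1 h.1 (xRat_cross hξ h' h)

theorem xRat_zero {W' : Affine L} (ξ : L) : XRat (k := k) ξ (0 : W'.Point) 1 0 := by
  refine ⟨isCoprime_one_left, 1, one_ne_zero, ?_, ?_⟩ <;> simp

theorem ht_zero {W' : Affine L} {ξ : L} (hξ : Transcendental k ξ) :
    ht k ξ (0 : W'.Point) = 0 := by
  rw [ht_eq hξ (xRat_zero ξ)]
  simp [hpair]

theorem xRat_neg_iff {W' : Affine L} (ξ : L) (Q : W'.Point) (f g : k[X]) :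
    XRat ξ (-Q) f g ↔ XRat ξ Q f g := by
  simp [XRat]

theorem ht_neg {W' : Affine L} (ξ : L) (Q : W'.Point) : ht k ξ (-Q) = ht k ξ Q := by
  have e : (XRat ξ (-Q) : k[X] → k[X] → Prop) = XRat ξ Q := by
    funext f g
    exact propext (xRat_neg_iff ξ Q f g)
  unfold ht
  rw [e]

theorem cop3_rev {a b c : k[X]} (h : Cop3 a b c) : Cop3 c b a := by
  obtain ⟨u, v, w, h⟩ := h
  exact ⟨w, v, u, by linear_combination h⟩

theorem htriple_rev (a b c : k[X]) : htriple c b a = htriple a b c := by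
  simp only [htriple]
  omega

/-- the `sym2x`-triple of two coprime pairs -/
noncomputable def symTriple (f₁ g₁ f₂ g₂ : k[X]) : Fin 3 → k[X] :=
  ![f₁ * f₂, f₁ * g₂ + g₁ * f₂, g₁ * g₂]

theorem cop3_symTriple {f₁ g₁ f₂ g₂ : k[X]} (h₁ : IsCoprime f₁ g₁) (h₂ : IsCoprime f₂ g₂) :
    Cop3 (symTriple f₁ g₁ f₂ g₂ 0) (symTriple f₁ g₁ f₂ g₂ 1) (symTriple f₁ g₁ f₂ g₂ 2) := by
  have h := cop3_rev (cop3_sym f₁ g₁ f₂ g₂ h₁ h₂)
  simp only [symTriple, Matrix.cons_val_zero, Matrix.cons_val_one, Matrix.cons_val]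
  convert h using 2
  ring

theorem htriple_symTriple {f₁ g₁ f₂ g₂ : k[X]} (h₁ : IsCoprime f₁ g₁) (h₂ : IsCoprime f₂ g₂) :
    htriple (symTriple f₁ g₁ f₂ g₂ 0) (symTriple f₁ g₁ f₂ g₂ 1) (symTriple f₁ g₁ f₂ g₂ 2)
      = hpair f₁ g₁ + hpair f₂ g₂ := by
  have h := htriple_sym f₁ g₁ f₂ g₂ h₁ h₂
  rw [← htriple_rev] at h
  simp only [symTriple, Matrix.cons_val_zero, Matrix.cons_val_one, Matrix.cons_val]
  rw [← h]
  congr 2
  ring

theorem aeval_symTriple {W' : Affine L} {ξ : L} {P Q : W'.Point} {f₁ g₁ f₂ g₂ : k[X]}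
    (hP : XRat ξ P f₁ g₁) (hQ : XRat ξ Q f₂ g₂) :
    ∃ c : L, c ≠ 0 ∧ ∀ i, aeval ξ (symTriple f₁ g₁ f₂ g₂ i) = c * P.sym2x Q i := by
  obtain ⟨-, c₁, hc₁, hf₁, hg₁⟩ := hP
  obtain ⟨-, c₂, hc₂, hf₂, hg₂⟩ := hQ
  refine ⟨c₁ * c₂, mul_ne_zero hc₁ hc₂, ?_⟩
  intro i
  fin_cases i <;>
    simp [symTriple, Point.sym2x, hf₁, hg₁, hf₂, hg₂] <;> ring

section Par

variable (W : WeierstrassCurve k)

theorem aeval_addSubMap_zero (w : Fin 3 → k[X]) :
    MvPolynomial.aeval w (W.addSubMap 0) =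
      w 0 ^ 2 - C W.b₄ * w 0 * w 2 - C W.b₆ * w 1 * w 2 - C W.b₈ * w 2 ^ 2 := by
  simp [addSubMap, Polynomial.algebraMap_eq]

theorem aeval_addSubMap_one (w : Fin 3 → k[X]) :
    MvPolynomial.aeval w (W.addSubMap 1) =
      2 * w 1 * w 0 + C W.b₂ * w 0 * w 2 + C W.b₄ * w 1 * w 2 + C W.b₆ * w 2 ^ 2 := by
  simp [addSubMap, Polynomial.algebraMap_eq, show (C (2 : k) : k[X]) = 2 from map_ofNat C 2]

theorem aeval_addSubMap_two (w : Fin 3 → k[X]) :
    MvPolynomial.aeval w (W.addSubMap 2) = w 1 ^ 2 - 4 * w 0 * w 2 := by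
  simp [addSubMap, Polynomial.algebraMap_eq, show (C (4 : k) : k[X]) = 4 from map_ofNat C 4]

/-- evaluating `addSubMap` of a polynomial triple at `ξ` -/
theorem aeval_aeval_addSubMap (ξ : L) (w : Fin 3 → k[X]) (v : Fin 3 → L) (c : L)
    (hw : ∀ i, aeval ξ (w i) = c * v i) (i : Fin 3) :
    aeval ξ (MvPolynomial.aeval w (W.addSubMap i))
      = c ^ 2 * MvPolynomial.eval v ((W.map (algebraMap k L)).addSubMap i) := by
  fin_cases i
  · simp only [Fin.zero_eta, aeval_addSubMap_zero, eval_addSubMap_zero, map_sub, map_mul, map_pow,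
      aeval_C, hw, WeierstrassCurve.map_b₄, WeierstrassCurve.map_b₆, WeierstrassCurve.map_b₈]
    ring
  · simp only [Fin.mk_one, aeval_addSubMap_one, eval_addSubMap_one, map_add, map_mul, map_pow,
      aeval_C, hw, WeierstrassCurve.map_b₂, WeierstrassCurve.map_b₄, WeierstrassCurve.map_b₆,
      map_ofNat]
    ring
  · simp only [Fin.reduceFinMk, aeval_addSubMap_two, eval_addSubMap_two, map_sub, map_mul,
      map_pow, hw, map_ofNat]
    ring

end Par

/-- PARALLELOGRAM LAW (from helper88's `AddSub`, L1, L2, L3).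
`W'` is the curve over `L`, `W` a model of it over `k`. -/
theorem ht_parallelogram [DecidableEq L] {W' : Affine L} (W : WeierstrassCurve k) [W.IsElliptic]
    (hW : W.map (algebraMap k L) = W') {ξ : L} (hξ : Transcendental k ξ)
    (P Q : W'.Point) (hP : ∃ f g : k[X], XRat ξ P f g) (hQ : ∃ f g : k[X], XRat ξ Q f g)
    (hs : ∃ f g : k[X], XRat ξ (P + Q) f g) (hd : ∃ f g : k[X], XRat ξ (P - Q) f g) :
    ht k ξ (P + Q) + ht k ξ (P - Q) = 2 * ht k ξ P + 2 * ht k ξ Q := by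
  subst hW
  obtain ⟨f₁, g₁, h₁⟩ := hP
  obtain ⟨f₂, g₂, h₂⟩ := hQ
  obtain ⟨f₃, g₃, h₃⟩ := hs
  obtain ⟨f₄, g₄, h₄⟩ := hd
  rw [ht_eq hξ h₁, ht_eq hξ h₂, ht_eq hξ h₃, ht_eq hξ h₄]
  -- the two triples
  set w := symTriple f₁ g₁ f₂ g₂ with hw
  set w' := symTriple f₃ g₃ f₄ g₄ with hw'
  have cw := cop3_symTriple h₁.1 h₂.1
  have cw' := cop3_symTriple h₃.1 h₄.1
  have hhw := htriple_symTriple h₁.1 h₂.1
  have hhw' := htriple_symTriple h₃.1 h₄.1
  rw [← hw] at cw hhw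
  rw [← hw'] at cw' hhw'
  have cΦ := cop3_addSubMap W w cw
  have hΦ := htriple_addSubMap W w cw
  obtain ⟨c, hc, hcw⟩ := aeval_symTriple h₁ h₂
  obtain ⟨c', hc', hcw'⟩ := aeval_symTriple h₃ h₄
  rw [← hw] at hcw
  rw [← hw'] at hcw'
  obtain ⟨e, he, hev⟩ := addSubMap_eval_sym2x (W := (W.map (algebraMap k L)).toAffine) P Q
  have key : ∀ i, aeval ξ (MvPolynomial.aeval w (W.addSubMap i))
      = c ^ 2 * e * (P + Q).sym2x (P - Q) i := by
    intro i
    rw [aeval_aeval_addSubMap W ξ w (P.sym2x Q) c hcw i, mul_assoc]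
    congr 1
    exact hev i
  have hprop : ∀ i j, MvPolynomial.aeval w (W.addSubMap i) * w' j
      = w' i * MvPolynomial.aeval w (W.addSubMap j) := by
    intro i j
    apply (transcendental_iff_injective.mp hξ)
    rw [map_mul, map_mul, key, key, hcw', hcw']
    ring
  have := htriple_eq_of_prop _ _ _ _ _ _ cΦ cw' (hprop 0 1) (hprop 0 2) (hprop 1 2)
  rw [hΦ, hhw, hhw'] at this
  omega

end Fermat.Agent.F1
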