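import Fermat.Agent.F1.Ht

/-!
# F1 / OddRat: the subgroup of odd-rational points (owner: helper4; proofs: helper10)

`E = shortW A B` over `ZMod ℓ`, `L` a field over `ZMod ℓ` and over `k`, `(ξ, η)` a point of `E(L)`.
A point of `E(L)` is *odd-rational* if it is `O` or `(x, η s)` with `x, s ∈ k(ξ)`.
-/

set_option autoImplicit false
set_option linter.unusedSectionVars false

open Polynomial WeierstrassCurve WeierstrassCurve.Affine IntermediateField

namespace Fermat.Agent.F1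

open Fermat.Agent.S52 (shortW frobPt)

variable {ℓ : ℕ} [Fact ℓ.Prime] (A B : ZMod ℓ)
variable (k : Type*) [Field k] [Algebra (ZMod ℓ) k]
variable {L : Type*} [Field L] [Algebra (ZMod ℓ) L] [Algebra k L] [IsScalarTower (ZMod ℓ) k L]
variable (ξ η : L)

/-- odd-rationality of a point relative to `(ξ, η)`. -/
def IsOddRat : ((shortW A B)⁄L).Point → Prop
  | .zero => True
  | .some x y _ => x ∈ k⟮ξ⟯ ∧ ∃ s ∈ k⟮ξ⟯, y = η * s

section aux

variable {A B}

lemma oddRat_a₁ : ((shortW A B)⁄L).a₁ = 0 := by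
  simp [shortW, WeierstrassCurve.baseChange]

lemma oddRat_a₂ : ((shortW A B)⁄L).a₂ = 0 := by
  simp [shortW, WeierstrassCurve.baseChange]

lemma oddRat_a₃ : ((shortW A B)⁄L).a₃ = 0 := by
  simp [shortW, WeierstrassCurve.baseChange]

lemma oddRat_a₄ : ((shortW A B)⁄L).a₄ = algebraMap (ZMod ℓ) L A := by
  simp [shortW, WeierstrassCurve.baseChange]

lemma oddRat_a₆ : ((shortW A B)⁄L).a₆ = algebraMap (ZMod ℓ) L B := by
  simp [shortW, WeierstrassCurve.baseChange]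

lemma oddRat_negY (x y : L) : ((shortW A B)⁄L).negY x y = -y := by
  rw [Affine.negY, oddRat_a₁, oddRat_a₃]
  ring

lemma oddRat_equation {x y : L} (h : ((shortW A B)⁄L).Equation x y) :
    y ^ 2 = x ^ 3 + algebraMap (ZMod ℓ) L A * x + algebraMap (ZMod ℓ) L B := by
  have := (Affine.equation_iff x y).mp h
  rw [oddRat_a₁, oddRat_a₂, oddRat_a₃, oddRat_a₄, oddRat_a₆] at this
  linear_combination this

variable {ξ}

lemma oddRat_coeff_mem (c : ZMod ℓ) : algebraMap (ZMod ℓ) L c ∈ k⟮ξ⟯ := by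
  rw [IsScalarTower.algebraMap_apply (ZMod ℓ) k L]
  exact IntermediateField.algebraMap_mem _ _

variable {η}

lemma oddRat_sq_mem (hns : ((shortW A B)⁄L).Nonsingular ξ η) : η ^ 2 ∈ k⟮ξ⟯ := by
  rw [oddRat_equation hns.1]
  have hξ : ξ ∈ k⟮ξ⟯ := mem_adjoin_simple_self k ξ
  exact add_mem (add_mem (pow_mem hξ 3) (mul_mem (oddRat_coeff_mem k A) hξ))
    (oddRat_coeff_mem k B)

end aux

variable [DecidableEq L]

variable {A B ξ η}

/-- the slope of the chord/tangent through two odd-rational points is `η σ` with `σ ∈ k(ξ)`. -/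
lemma oddRat_slope (hns : ((shortW A B)⁄L).Nonsingular ξ η) {x₁ x₂ s₁ s₂ : L}
    (hx₁ : x₁ ∈ k⟮ξ⟯) (hx₂ : x₂ ∈ k⟮ξ⟯) (hs₁ : s₁ ∈ k⟮ξ⟯) (hs₂ : s₂ ∈ k⟮ξ⟯)
    (hxy : ¬(x₁ = x₂ ∧ η * s₁ = ((shortW A B)⁄L).negY x₂ (η * s₂))) :
    ∃ σ ∈ k⟮ξ⟯, ((shortW A B)⁄L).slope x₁ x₂ (η * s₁) (η * s₂) = η * σ := by
  by_cases hx : x₁ = x₂
  · have hy : η * s₁ ≠ ((shortW A B)⁄L).negY x₂ (η * s₂) := fun h => hxy ⟨hx, h⟩
    rw [Affine.slope_of_Y_ne hx hy, oddRat_negY, oddRat_a₁, oddRat_a₂, oddRat_a₄]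
    by_cases hden : η * s₁ - -(η * s₁) = 0
    · refine ⟨0, zero_mem _, ?_⟩
      rw [hden, div_zero, mul_zero]
    · have hη : η ≠ 0 := by
        rintro rfl
        simp at hden
      have hss : s₁ + s₁ ≠ 0 := by
        intro h0
        apply hden
        have : η * s₁ - -(η * s₁) = η * (s₁ + s₁) := by ring
        rw [this, h0, mul_zero]
      have hη2 : η ^ 2 ≠ 0 := pow_ne_zero 2 hη
      refine ⟨(3 * x₁ ^ 2 + algebraMap (ZMod ℓ) L A) / (η ^ 2 * (s₁ + s₁)), ?_, ?_⟩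
      · refine div_mem (add_mem (mul_mem ?_ (pow_mem hx₁ 2)) (oddRat_coeff_mem k A))
          (mul_mem (oddRat_sq_mem k hns) (add_mem hs₁ hs₁))
        exact ofNat_mem _ 3
      · field_simp
        ring
  · rw [Affine.slope_of_X_ne hx]
    refine ⟨(s₁ - s₂) / (x₁ - x₂), div_mem (sub_mem hs₁ hs₂) (sub_mem hx₁ hx₂), ?_⟩
    have : x₁ - x₂ ≠ 0 := sub_ne_zero.mpr hx
    field_simp

lemma isOddRat_zero : IsOddRat A B k ξ η (0 : ((shortW A B)⁄L).Point) := trivial

lemma isOddRat_some {x y : L} (h : ((shortW A B)⁄L).Nonsingular x y) :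
    IsOddRat A B k ξ η (Point.some x y h) ↔ x ∈ k⟮ξ⟯ ∧ ∃ s ∈ k⟮ξ⟯, y = η * s := Iff.rfl

lemma isOddRat_neg {Q : ((shortW A B)⁄L).Point} (hQ : IsOddRat A B k ξ η Q) :
    IsOddRat A B k ξ η (-Q) := by
  rcases Q with _ | ⟨x, y, h⟩
  · exact hQ
  · obtain ⟨hx, s, hs, rfl⟩ := hQ
    rw [Point.neg_some, isOddRat_some]
    refine ⟨hx, -s, neg_mem hs, ?_⟩
    rw [oddRat_negY]
    ring

lemma isOddRat_add (hns : ((shortW A B)⁄L).Nonsingular ξ η) {P Q : ((shortW A B)⁄L).Point}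
    (hP : IsOddRat A B k ξ η P) (hQ : IsOddRat A B k ξ η Q) :
    IsOddRat A B k ξ η (P + Q) := by
  rcases P with _ | ⟨x₁, y₁, h₁⟩
  · rw [← Point.zero_def, zero_add]
    exact hQ
  rcases Q with _ | ⟨x₂, y₂, h₂⟩
  · rw [← Point.zero_def, add_zero]
    exact hP
  obtain ⟨hx₁, s₁, hs₁, rfl⟩ := hP
  obtain ⟨hx₂, s₂, hs₂, rfl⟩ := hQ
  by_cases hxy : x₁ = x₂ ∧ η * s₁ = ((shortW A B)⁄L).negY x₂ (η * s₂)
  · rw [Point.add_of_Y_eq hxy.1 hxy.2]
    exact isOddRat_zero k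
  · rw [Point.add_some hxy, isOddRat_some]
    obtain ⟨σ, hσ, hsl⟩ := oddRat_slope k hns hx₁ hx₂ hs₁ hs₂ hxy
    have hX : ((shortW A B)⁄L).addX x₁ x₂ (((shortW A B)⁄L).slope x₁ x₂ (η * s₁) (η * s₂))
        = η ^ 2 * σ ^ 2 - x₁ - x₂ := by
      rw [hsl, Affine.addX, oddRat_a₁, oddRat_a₂]
      ring
    have hXmem : η ^ 2 * σ ^ 2 - x₁ - x₂ ∈ k⟮ξ⟯ :=
      sub_mem (sub_mem (mul_mem (oddRat_sq_mem k hns) (pow_mem hσ 2)) hx₁) hx₂
    refine ⟨by rw [hX]; exact hXmem, -(σ * (η ^ 2 * σ ^ 2 - x₁ - x₂ - x₁) + s₁), ?_, ?_⟩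
    · exact neg_mem (add_mem (mul_mem hσ (sub_mem hXmem hx₁)) hs₁)
    · rw [Affine.addY, Affine.negAddY, oddRat_negY, hX, hsl]
      ring


/-- the subgroup of odd-rational points. -/
def oddRat (hns : ((shortW A B)⁄L).Nonsingular ξ η) :
    AddSubgroup ((shortW A B)⁄L).Point where
  carrier := {Q | IsOddRat A B k ξ η Q}
  zero_mem' := trivial
  add_mem' := fun hP hQ => isOddRat_add k hns hP hQ
  neg_mem' := fun hQ => isOddRat_neg k hQ

variable (hns : ((shortW A B)⁄L).Nonsingular ξ η)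

lemma mem_oddRat_iff {Q : ((shortW A B)⁄L).Point} :
    Q ∈ oddRat k hns ↔ IsOddRat A B k ξ η Q := Iff.rfl

theorem gen_mem_oddRat : Point.some ξ η hns ∈ oddRat k hns :=
  ⟨mem_adjoin_simple_self k ξ, 1, one_mem _, (mul_one η).symm⟩

omit [IsScalarTower (ZMod ℓ) k L] hns in
lemma oddRat_frobPt_some {x y : L} (h : ((shortW A B)⁄L).Nonsingular x y) :
    ∃ h', frobPt (shortW A B) L (Point.some x y h) = Point.some (x ^ ℓ) (y ^ ℓ) h' := by
  have e : frobPt (shortW A B) L (Point.some x y h)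
      = Point.some (FiniteField.frobeniusAlgHom (ZMod ℓ) L x)
          (FiniteField.frobeniusAlgHom (ZMod ℓ) L y)
          ((WeierstrassCurve.Affine.baseChange_nonsingular (shortW A B)
            (FiniteField.frobeniusAlgHom (ZMod ℓ) L).injective ..).mpr h) := rfl
  have hx : FiniteField.frobeniusAlgHom (ZMod ℓ) L x = x ^ ℓ := by
    rw [FiniteField.coe_frobeniusAlgHom, ZMod.card]
  have hy : FiniteField.frobeniusAlgHom (ZMod ℓ) L y = y ^ ℓ := by
    rw [FiniteField.coe_frobeniusAlgHom, ZMod.card]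
  have key : ∀ (u v : L) (hu : u = x ^ ℓ) (hv : v = y ^ ℓ)
      (huv : ((shortW A B)⁄L).Nonsingular u v),
      ∃ h', Point.some u v huv = Point.some (x ^ ℓ) (y ^ ℓ) h' := by
    rintro u v rfl rfl huv
    exact ⟨huv, rfl⟩
  rw [e]
  exact key _ _ hx hy _

/-- NOTE (helper10): the hypothesis `5 ≤ ℓ` (in fact `ℓ` odd) is needed: `η ^ ℓ = η (η²)^((ℓ-1)/2)`. -/
theorem frob_mem_oddRat (hℓ : 5 ≤ ℓ) {Q : ((shortW A B)⁄L).Point} (hQ : Q ∈ oddRat k hns) :
    frobPt (shortW A B) L Q ∈ oddRat k hns := by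
  rcases Q with _ | ⟨x, y, h⟩
  · rw [← Point.zero_def, map_zero]
    exact (oddRat k hns).zero_mem
  · obtain ⟨hx, s, hs, rfl⟩ := hQ
    obtain ⟨h', e⟩ := oddRat_frobPt_some (A := A) (B := B) h
    rw [e, mem_oddRat_iff, isOddRat_some]
    have hodd : Odd ℓ := by
      rcases (Fact.out : ℓ.Prime).eq_two_or_odd' with h2 | h2
      · omega
      · exact h2
    obtain ⟨m, hm⟩ := hodd
    refine ⟨pow_mem hx ℓ, (η ^ 2) ^ m * s ^ ℓ,
      mul_mem (pow_mem (oddRat_sq_mem k hns) m) (pow_mem hs ℓ), ?_⟩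
    have e1 : η ^ ℓ = η * (η ^ 2) ^ m := by
      rw [hm]
      ring
    rw [mul_pow, e1]
    ring

omit [Algebra (ZMod ℓ) k] [IsScalarTower (ZMod ℓ) k L] [DecidableEq L] hns in
/-- an element of `k(ξ)` is a quotient of values of coprime polynomials. -/
lemma oddRat_exists_coprime_rep {x : L} (hx : x ∈ k⟮ξ⟯) :
    ∃ f g : k[X], IsCoprime f g ∧ aeval ξ g ≠ 0 ∧ aeval ξ f = aeval ξ g * x := by
  obtain ⟨r, s, hrs⟩ := (mem_adjoin_simple_iff k x).mp hx
  by_cases hs : aeval ξ s = 0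
  · refine ⟨0, 1, isCoprime_zero_left.mpr isUnit_one, by simp, ?_⟩
    rw [hrs, hs, div_zero]
    simp
  · have hs0 : s ≠ 0 := by
      rintro rfl
      simp at hs
    set z : RatFunc k := algebraMap k[X] (RatFunc k) r / algebraMap k[X] (RatFunc k) s with hz
    have hcross : z.num * s = r * z.denom := (RatFunc.num_mul_eq_mul_denom_iff hs0).mpr hz
    obtain ⟨e, he⟩ : z.denom ∣ s := RatFunc.denom_div_dvd r s
    have hg : aeval ξ z.denom ≠ 0 := by
      intro h0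
      apply hs
      rw [he, map_mul, h0, zero_mul]
    refine ⟨z.num, z.denom, RatFunc.isCoprime_num_denom z, hg, ?_⟩
    have h1 := congrArg (aeval ξ) hcross
    rw [map_mul, map_mul] at h1
    rw [hrs]
    field_simp
    linear_combination h1

theorem exists_xRat_of_mem {Q : ((shortW A B)⁄L).Point} (hQ : Q ∈ oddRat k hns) :
    ∃ f g : k[X], XRat ξ Q f g := by
  rcases Q with _ | ⟨x, y, h⟩
  · exact ⟨1, 0, xRat_zero ξ⟩
  · obtain ⟨hx, -⟩ := hQ
    obtain ⟨f, g, hfg, hg, hf⟩ := oddRat_exists_coprime_rep k hx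
    refine ⟨f, g, hfg, aeval ξ g, hg, ?_, ?_⟩
    · rw [Point.xRep_some]
      simpa using hf
    · rw [Point.xRep_some]
      simp

theorem ht_gen (htr : Transcendental k ξ) : ht k ξ (Point.some ξ η hns) = 1 := by
  have h : XRat (k := k) ξ (Point.some ξ η hns) X 1 := by
    refine ⟨isCoprime_one_right, 1, one_ne_zero, ?_, ?_⟩
    · rw [Point.xRep_some]; simp
    · rw [Point.xRep_some]; simp
  rw [ht_eq htr h]
  simp [hpair]

omit hns in
theorem ht_frob (htr : Transcendental k ξ) {Q : ((shortW A B)⁄L).Point}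
    (hQ : ∃ f g : k[X], XRat ξ Q f g) :
    ht k ξ (frobPt (shortW A B) L Q) = ℓ * ht k ξ Q := by
  obtain ⟨f, g, hfg⟩ := hQ
  have hℓ0 : ℓ ≠ 0 := (Fact.out : ℓ.Prime).ne_zero
  have h' : XRat (k := k) ξ (frobPt (shortW A B) L Q) (f ^ ℓ) (g ^ ℓ) := by
    obtain ⟨hcop, c, hc, hf, hg⟩ := hfg
    refine ⟨hcop.pow, c ^ ℓ, pow_ne_zero ℓ hc, ?_, ?_⟩
    · rw [map_pow, hf, mul_pow]
      congr 1
      rcases Q with _ | ⟨x, y, h⟩
      · rw [← Point.zero_def, map_zero, Point.xRep_zero]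
        simp
      · obtain ⟨h', e⟩ := oddRat_frobPt_some (A := A) (B := B) h
        rw [e, Point.xRep_some, Point.xRep_some]
        simp
    · rw [map_pow, hg, mul_pow]
      congr 1
      rcases Q with _ | ⟨x, y, h⟩
      · rw [← Point.zero_def, map_zero, Point.xRep_zero]
        simp [hℓ0]
      · obtain ⟨h', e⟩ := oddRat_frobPt_some (A := A) (B := B) h
        rw [e, Point.xRep_some, Point.xRep_some]
        simp
  rw [ht_eq htr h', ht_eq htr hfg, hpair, hpair, natDegree_pow, natDegree_pow,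
    Nat.mul_max_mul_left]

/-- height `0` ⇒ constant x-coordinate ⇒ (parity: `deg (X³+AX+B)` is odd) `y = 0`. -/
theorem two_nsmul_eq_zero_of_ht_eq_zero (_hℓ : 5 ≤ ℓ) (htr : Transcendental k ξ)
    {Q : ((shortW A B)⁄L).Point} (hQ : Q ∈ oddRat k hns) (h0 : ht k ξ Q = 0) : 2 • Q = 0 := by
  rcases Q with _ | ⟨x, y, h⟩
  · rw [← Point.zero_def, smul_zero]
  obtain ⟨hx, s, hs, rfl⟩ := hQ
  -- the x-coordinate is constant
  obtain ⟨f, g, hfg, hg, hf⟩ := oddRat_exists_coprime_rep k hx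
  have hX : XRat (k := k) ξ (Point.some x (η * s) h) f g := by
    refine ⟨hfg, aeval ξ g, hg, ?_, ?_⟩
    · rw [Point.xRep_some]; simpa using hf
    · rw [Point.xRep_some]; simp
  rw [ht_eq htr hX, hpair] at h0
  have hf0 : f.natDegree = 0 := by omega
  have hg0 : g.natDegree = 0 := by omega
  obtain ⟨a, rfl⟩ : ∃ a, f = C a := ⟨_, eq_C_of_natDegree_eq_zero hf0⟩
  obtain ⟨b, rfl⟩ : ∃ b, g = C b := ⟨_, eq_C_of_natDegree_eq_zero hg0⟩
  rw [aeval_C] at hg hf
  have hxe : x = algebraMap k L (a / b) := by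
    rw [map_div₀]
    field_simp
    rw [hf, aeval_C]
    ring
  -- `s = 0`
  have hs0 : s = 0 := by
    by_contra hsne
    obtain ⟨p, q, hpq⟩ := (mem_adjoin_simple_iff k s).mp hs
    have hq : aeval ξ q ≠ 0 := by
      intro hq0
      apply hsne
      rw [hpq, hq0, div_zero]
    have hp : aeval ξ p ≠ 0 := by
      intro hp0
      apply hsne
      rw [hpq, hp0, zero_div]
    have hp0 : p ≠ 0 := by rintro rfl; simp at hp
    have hq0 : q ≠ 0 := by rintro rfl; simp at hq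
    have e1 := oddRat_equation h.1
    have e2 := oddRat_equation hns.1
    set A' : k := algebraMap (ZMod ℓ) k A with hA'
    set B' : k := algebraMap (ZMod ℓ) k B with hB'
    have hAL : algebraMap (ZMod ℓ) L A = algebraMap k L A' := by
      rw [hA', ← IsScalarTower.algebraMap_apply]
    have hBL : algebraMap (ZMod ℓ) L B = algebraMap k L B' := by
      rw [hB', ← IsScalarTower.algebraMap_apply]
    set F : k[X] := X ^ 3 + C A' * X + C B' with hF
    set κ : k := (a / b) ^ 3 + A' * (a / b) + B' with hκ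
    have hFdeg : F.natDegree = 3 := by
      rw [hF]
      compute_degree!
    have hF0 : F ≠ 0 := by
      intro h0
      rw [h0, natDegree_zero] at hFdeg
      omega
    have hFξ : aeval ξ F = η ^ 2 := by
      rw [e2, hF, hAL, hBL]
      simp
    have hκx : algebraMap k L κ = (η * s) ^ 2 := by
      rw [e1, hxe, hκ, hAL, hBL]
      simp
    have hpoly : F * p ^ 2 = C κ * q ^ 2 := by
      apply (transcendental_iff_injective.mp htr)
      rw [map_mul, map_mul, map_pow, map_pow, hFξ, aeval_C, hκx, hpq]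
      field_simp
    have hdeg := congrArg natDegree hpoly
    rw [natDegree_mul hF0 (pow_ne_zero 2 hp0), natDegree_pow, hFdeg] at hdeg
    by_cases hκ0 : κ = 0
    · rw [hκ0, map_zero, zero_mul] at hpoly
      exact mul_ne_zero hF0 (pow_ne_zero 2 hp0) hpoly
    · rw [natDegree_C_mul hκ0, natDegree_pow] at hdeg
      omega
  -- conclusion
  rw [two_nsmul]
  apply Point.add_self_of_Y_eq
  rw [oddRat_negY, hs0]
  simp

end Fermat.Agent.F1
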