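import Fermat.Agent.F1.Defs

/-!
# F1 / Parity: a constant x-coordinate forces `y = 0` on odd-rational points (owner: helper65)

`η² = f(ξ)` with `f = X³ + A X + B` of odd degree and `ξ` transcendental over `k`; if `(c, η s)` lies on
the curve with `c ∈ k` and `s ∈ k(ξ)`, then `f(ξ) s² = f(c)` is constant, hence `s = 0`
(write `s = u(ξ)/v(ξ)`: `f u² = f(c) v²` in `k[X]`, compare degrees mod 2).
-/

set_option autoImplicit false

open Polynomial IntermediateField

namespace Fermat.Agent.F1

variable {k : Type*} [Field k] {L : Type*} [Field L] [Algebra k L]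

/-- the cubic `X³ + A X + B` over a field is monic of degree `3`. -/
lemma parity_natDegree_cubic (A B : k) : (cubic A B).natDegree = 3 := by
  unfold cubic
  compute_degree!

lemma parity_cubic_ne_zero (A B : k) : cubic A B ≠ 0 := by
  intro h
  have := parity_natDegree_cubic A B
  rw [h, natDegree_zero] at this
  omega

/-- polynomial form: `f u² = d v²` with `deg f = 3` forces `u = 0`. -/
lemma parity_poly (A B d : k) (u v : k[X]) (h : cubic A B * u ^ 2 = C d * v ^ 2) : u = 0 := by
  by_contra hu
  have h1 : (cubic A B * u ^ 2).natDegree = 3 + 2 * u.natDegree := by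
    rw [natDegree_mul (parity_cubic_ne_zero A B) (pow_ne_zero 2 hu), parity_natDegree_cubic,
      natDegree_pow]
  have hne : cubic A B * u ^ 2 ≠ 0 := mul_ne_zero (parity_cubic_ne_zero A B) (pow_ne_zero 2 hu)
  rw [h] at h1 hne
  have hd : d ≠ 0 := by
    rintro rfl
    simp at hne
  rw [natDegree_C_mul hd, natDegree_pow] at h1
  omega

theorem parity_core (A B : k) {ξ η : L} (htr : Transcendental k ξ)
    (hη : η ^ 2 = ξ ^ 3 + algebraMap k L A * ξ + algebraMap k L B)
    (c : k) {s : L} (hs : s ∈ k⟮ξ⟯)
    (h : (η * s) ^ 2 = algebraMap k L c ^ 3 + algebraMap k L A * algebraMap k L c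
      + algebraMap k L B) : s = 0 := by
  obtain ⟨u, v, rfl⟩ := (IntermediateField.mem_adjoin_simple_iff k s).mp hs
  by_cases hv : aeval ξ v = 0
  · rw [hv, div_zero]
  have hinj := transcendental_iff_injective.mp htr
  have hcub : aeval ξ (cubic A B) = η ^ 2 := by
    rw [hη]
    simp [cubic]
  have key : cubic A B * u ^ 2 = C (c ^ 3 + A * c + B) * v ^ 2 := by
    apply hinj
    rw [map_mul, map_mul, map_pow, map_pow, hcub, aeval_C]
    simp only [map_add, map_mul, map_pow]
    rw [← h]
    field_simp
  have hu := parity_poly A B _ u v key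
  rw [hu, map_zero, zero_div]

end Fermat.Agent.F1
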