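import Mathlib

/-!
# F1 / RDeg: degree of rational functions is multiplicative under composition

`rdeg f = max (natDegree num) (natDegree denom)` for `f : RatFunc k`, and for every
`k`-algebra endomorphism `σ` of `RatFunc k` (i.e. "substitute `g = σ X` for `X`"):
`rdeg (σ f) = rdeg f * rdeg (σ X)`.
-/

namespace Fermat.Agent.F1

open Polynomial IntermediateField

variable {k : Type*} [Field k]

/-- Degree of a rational function, as a self-map of the projective line:
`max (deg num) (deg denom)`. -/
noncomputable def rdeg (f : RatFunc k) : ℕ := max f.num.natDegree f.denom.natDegree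

theorem rdeg_def (f : RatFunc k) : rdeg f = max f.num.natDegree f.denom.natDegree := rfl

theorem rdeg_eq_finrank (f : RatFunc k) :
    rdeg f = Module.finrank (IntermediateField.adjoin k {f}) (RatFunc k) :=
  (RatFunc.finrank_eq_max_natDegree f).symm

/-- `rdeg` only depends on the subfield generated. -/
theorem rdeg_eq_of_adjoin_eq {f g : RatFunc k}
    (h : IntermediateField.adjoin k {f} = IntermediateField.adjoin k {g}) : rdeg f = rdeg g := by
  rw [rdeg_eq_finrank, rdeg_eq_finrank, h]

/-- **Multiplicativity of the degree under composition**, in `AlgHom` form. -/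
theorem rdeg_algHom (σ : RatFunc k →ₐ[k] RatFunc k) (f : RatFunc k) :
    rdeg (σ f) = rdeg f * rdeg (σ RatFunc.X) := by
  have h1 : (IntermediateField.adjoin k {f}).map σ = IntermediateField.adjoin k {σ f} := by
    rw [IntermediateField.adjoin_map]; simp
  have h2 : (⊤ : IntermediateField k (RatFunc k)).map σ =
      IntermediateField.adjoin k {σ RatFunc.X} := by
    rw [← RatFunc.adjoin_X, IntermediateField.adjoin_map]; simp
  have hle : IntermediateField.adjoin k {σ f} ≤ IntermediateField.adjoin k {σ RatFunc.X} := by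
    rw [← h1, ← h2]; exact IntermediateField.map_mono _ le_top
  have key := IntermediateField.relfinrank_mul_finrank_top hle
  rw [← h1, ← h2, IntermediateField.relfinrank_map_map,
    IntermediateField.relfinrank_top_right, h1, h2] at key
  rw [rdeg_eq_finrank, rdeg_eq_finrank, rdeg_eq_finrank, key]

theorem rdeg_C (c : k) : rdeg (RatFunc.C c : RatFunc k) = 0 := by
  simp [rdeg]

theorem rdeg_zero : rdeg (0 : RatFunc k) = 0 := by
  simp [rdeg]

theorem rdeg_one : rdeg (1 : RatFunc k) = 0 := by
  simp [rdeg]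

theorem rdeg_X : rdeg (RatFunc.X : RatFunc k) = 1 := by
  simp [rdeg]

theorem rdeg_eq_zero_iff (f : RatFunc k) : rdeg f = 0 ↔ ∃ c, f = RatFunc.C c := by
  rw [rdeg, Nat.max_eq_zero_iff, ← RatFunc.eq_C_iff]

theorem rdeg_algebraMap (p : k[X]) : rdeg (algebraMap k[X] (RatFunc k) p) = p.natDegree := by
  simp [rdeg]

/-- `rdeg (p / q) = max (deg p) (deg q)` for coprime `p`, `q`. -/
theorem rdeg_div_of_isCoprime (p q : k[X]) (hq : q ≠ 0) (h : IsCoprime p q) :
    rdeg (algebraMap k[X] (RatFunc k) p / algebraMap k[X] (RatFunc k) q) =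
      max p.natDegree q.natDegree := by
  classical
  have hg : IsUnit (gcd p q) := by
    rw [← gcd_isUnit_iff] at h
    exact h
  have hgd : (gcd p q).natDegree = 0 := Polynomial.natDegree_eq_zero_of_isUnit hg
  have hg0 : gcd p q ≠ 0 := hg.ne_zero
  have hqd : q / gcd p q ≠ 0 := right_div_gcd_ne_zero hq
  have hc : (q / gcd p q).leadingCoeff⁻¹ ≠ 0 :=
    inv_ne_zero (Polynomial.leadingCoeff_ne_zero.mpr hqd)
  have key : ∀ a : k[X], gcd p q ∣ a → (a / gcd p q).natDegree = a.natDegree := by
    intro a ha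
    by_cases ha0 : a = 0
    · subst ha0; simp
    have hmul : a / gcd p q * gcd p q = a := by
      rw [mul_comm]; exact EuclideanDomain.mul_div_cancel' hg0 ha
    have hne : a / gcd p q ≠ 0 := by
      intro h0
      rw [h0, zero_mul] at hmul
      exact ha0 hmul.symm
    conv_rhs => rw [← hmul]
    rw [Polynomial.natDegree_mul hne hg0, hgd, add_zero]
  have e1 : (p / gcd p q).natDegree = p.natDegree := key p (gcd_dvd_left p q)
  have e2 : (q / gcd p q).natDegree = q.natDegree := key q (gcd_dvd_right p q)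
  rw [rdeg, RatFunc.num_div, RatFunc.denom_div p hq, Polynomial.natDegree_C_mul hc,
    Polynomial.natDegree_C_mul hc, e1, e2]

/-- Substitution `X ↦ s` for a non-constant rational function `s`. -/
noncomputable def rsubst (s : RatFunc k) (hs : ¬ ∃ c, s = RatFunc.C c) :
    RatFunc k →ₐ[k] RatFunc k :=
  RatFunc.liftAlgHom (Polynomial.aeval s)
    (nonZeroDivisors_le_comap_nonZeroDivisors_of_injective _
      ((transcendental_iff_injective).mp (RatFunc.transcendental_of_ne_C s hs)))

theorem rsubst_apply (s : RatFunc k) (hs : ¬ ∃ c, s = RatFunc.C c) (r : RatFunc k) :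
    rsubst s hs r = Polynomial.aeval s r.num / Polynomial.aeval s r.denom :=
  RatFunc.liftAlgHom_apply _ _ r

theorem rsubst_algebraMap (s : RatFunc k) (hs : ¬ ∃ c, s = RatFunc.C c) (p : k[X]) :
    rsubst s hs (algebraMap k[X] (RatFunc k) p) = Polynomial.aeval s p := by
  rw [rsubst_apply]; simp

theorem rsubst_X (s : RatFunc k) (hs : ¬ ∃ c, s = RatFunc.C c) :
    rsubst s hs RatFunc.X = s := by
  rw [← RatFunc.algebraMap_X, rsubst_algebraMap, Polynomial.aeval_X]

theorem rsubst_div (s : RatFunc k) (hs : ¬ ∃ c, s = RatFunc.C c) (p q : k[X]) :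
    rsubst s hs (algebraMap k[X] (RatFunc k) p / algebraMap k[X] (RatFunc k) q) =
      Polynomial.aeval s p / Polynomial.aeval s q := by
  rw [map_div₀, rsubst_algebraMap, rsubst_algebraMap]

/-- **deg (r ∘ s) = deg r * deg s**. -/
theorem rdeg_rsubst (s : RatFunc k) (hs : ¬ ∃ c, s = RatFunc.C c) (r : RatFunc k) :
    rdeg (rsubst s hs r) = rdeg r * rdeg s := by
  rw [rdeg_algHom, rsubst_X]

/-- `rdeg (f ^ n) = n * rdeg f`. -/
theorem rdeg_pow (f : RatFunc k) (n : ℕ) : rdeg (f ^ n) = n * rdeg f := by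
  by_cases hf : ∃ c, f = RatFunc.C c
  · obtain ⟨c, rfl⟩ := hf
    rw [← map_pow, rdeg_C, rdeg_C, mul_zero]
  · have h := rdeg_rsubst f hf (RatFunc.X ^ n)
    rw [map_pow, rsubst_X] at h
    rw [h]
    congr 1
    rw [← RatFunc.algebraMap_X, ← map_pow, rdeg_algebraMap, Polynomial.natDegree_X_pow]

/-- General target field: if `σ : L →ₐ[k] L` maps (the image of) `X` to (the image of) `s`,
then it maps `r` to `t` with `rdeg t = rdeg r * rdeg s`. -/
theorem exists_rdeg_of_algHom {L : Type*} [Field L] [Algebra k L] [Algebra (RatFunc k) L]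
    [IsScalarTower k (RatFunc k) L] (σ : L →ₐ[k] L) (s : RatFunc k)
    (hσ : σ (algebraMap (RatFunc k) L RatFunc.X) = algebraMap (RatFunc k) L s) (r : RatFunc k) :
    ∃ t : RatFunc k, σ (algebraMap (RatFunc k) L r) = algebraMap (RatFunc k) L t ∧
      rdeg t = rdeg r * rdeg s := by
  have hinj : Function.Injective (algebraMap (RatFunc k) L) := (algebraMap (RatFunc k) L).injective
  have hs : ¬ ∃ c, s = RatFunc.C c := by
    rintro ⟨c, rfl⟩
    have h1 : σ (algebraMap (RatFunc k) L (RatFunc.C c)) = algebraMap (RatFunc k) L (RatFunc.C c) := by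
      have : algebraMap (RatFunc k) L (RatFunc.C c) = algebraMap k L c := by
        rw [← RatFunc.algebraMap_eq_C, ← IsScalarTower.algebraMap_apply]
      rw [this, σ.commutes]
    have h2 : algebraMap (RatFunc k) L RatFunc.X = algebraMap (RatFunc k) L (RatFunc.C c) :=
      σ.injective (hσ.trans h1.symm)
    have h3 : (RatFunc.X : RatFunc k) = RatFunc.C c := hinj h2
    have h4 := rdeg_X (k := k)
    rw [h3, rdeg_C] at h4
    exact absurd h4 (by norm_num)
  refine ⟨rsubst s hs r, ?_, rdeg_rsubst s hs r⟩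
  -- two `k`-algebra homs `RatFunc k → L` agreeing on `X`
  let φ₁ : RatFunc k →ₐ[k] L := σ.comp (IsScalarTower.toAlgHom k (RatFunc k) L)
  let φ₂ : RatFunc k →ₐ[k] L := (IsScalarTower.toAlgHom k (RatFunc k) L).comp (rsubst s hs)
  have hX : φ₁ RatFunc.X = φ₂ RatFunc.X := by
    simp only [φ₁, φ₂, AlgHom.comp_apply, IsScalarTower.coe_toAlgHom', rsubst_X]
    exact hσ
  have hpoly : ∀ p : k[X], φ₁ (algebraMap k[X] (RatFunc k) p) =
      φ₂ (algebraMap k[X] (RatFunc k) p) := by
    intro p
    have e1 : φ₁ (algebraMap k[X] (RatFunc k) p) = Polynomial.aeval (φ₁ RatFunc.X) p := by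
      rw [Polynomial.aeval_algHom_apply, RatFunc.aeval_X_left_eq_algebraMap]
    have e2 : φ₂ (algebraMap k[X] (RatFunc k) p) = Polynomial.aeval (φ₂ RatFunc.X) p := by
      rw [Polynomial.aeval_algHom_apply, RatFunc.aeval_X_left_eq_algebraMap]
    rw [e1, e2, hX]
  have : φ₁ r = φ₂ r := by
    rw [← RatFunc.num_div_denom r, map_div₀, map_div₀, hpoly, hpoly]
  exact this

end Fermat.Agent.F1
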